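import Mathlib

/-!
# The valuation subring `R_(p)` of the fraction field of a UFD (KL-A, INJ-abs step (b))
-/

namespace Fermat.Agent.S18.Abs

variable {R F : Type*} [CommRing R] [IsDomain R] [UniqueFactorizationMonoid R]
  [Field F] [Algebra R F] [IsFractionRing R F]

/-- `R_(p)` as a valuation subring of `F = Frac R`. -/
def primeValSubring (F : Type*) [Field F] [Algebra R F] [IsFractionRing R F]
    (p : R) (hp : Prime p) : ValuationSubring F where
  carrier := {y | ∃ a b : R, ¬ p ∣ b ∧ y * algebraMap R F b = algebraMap R F a}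
  mul_mem' := by
    rintro x y ⟨a, b, hb, e⟩ ⟨a', b', hb', e'⟩
    refine ⟨a * a', b * b', fun h => (hp.dvd_or_dvd h).elim hb hb', ?_⟩
    rw [map_mul, map_mul, ← e, ← e']; ring
  one_mem' := ⟨1, 1, fun h => hp.not_isUnit (isUnit_of_dvd_one h), by simp⟩
  add_mem' := by
    rintro x y ⟨a, b, hb, e⟩ ⟨a', b', hb', e'⟩
    refine ⟨a * b' + a' * b, b * b', fun h => (hp.dvd_or_dvd h).elim hb hb', ?_⟩
    rw [map_add, map_mul, map_mul, map_mul, ← e, ← e']; ring
  zero_mem' := ⟨0, 1, fun h => hp.not_isUnit (isUnit_of_dvd_one h), by simp⟩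
  neg_mem' := by
    rintro x ⟨a, b, hb, e⟩
    exact ⟨-a, b, hb, by rw [map_neg, ← e]; ring⟩
  mem_or_inv_mem' := by
    intro y
    obtain ⟨a, b, hab, rfl⟩ := IsFractionRing.exists_reduced_fraction R y
    have hb0 : (b : R) ≠ 0 := nonZeroDivisors.ne_zero b.2
    have hbF : algebraMap R F b ≠ 0 := by simp
    by_cases hpb : p ∣ (b : R)
    · right
      have hpa : ¬ p ∣ a := fun hpa => hp.not_isUnit (hab hpa hpb)
      have ha0 : a ≠ 0 := fun h0 => hpa (h0 ▸ dvd_zero p)
      have haF : algebraMap R F a ≠ 0 := by simpa using ha0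
      refine ⟨b, a, hpa, ?_⟩
      rw [IsFractionRing.mk'_eq_div]
      field_simp
    · left
      refine ⟨a, b, hpb, ?_⟩
      rw [IsFractionRing.mk'_eq_div]
      field_simp

theorem mem_primeValSubring {p : R} {hp : Prime p} {y : F} :
    y ∈ primeValSubring F p hp ↔
      ∃ a b : R, ¬ p ∣ b ∧ y * algebraMap R F b = algebraMap R F a := Iff.rfl

theorem algebraMap_mem_primeValSubring {p : R} (hp : Prime p) (r : R) :
    algebraMap R F r ∈ primeValSubring F p hp :=
  ⟨r, 1, fun h => hp.not_isUnit (isUnit_of_dvd_one h), by simp⟩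

theorem inv_mem_primeValSubring {p : R} (hp : Prime p) {r : R} (hr : ¬ p ∣ r) :
    (algebraMap R F r)⁻¹ ∈ primeValSubring F p hp := by
  have hr0 : r ≠ 0 := fun h0 => hr (h0 ▸ dvd_zero p)
  have hrF : algebraMap R F r ≠ 0 := by simpa using hr0
  exact ⟨1, r, hr, by rw [map_one]; field_simp⟩

theorem inv_prime_not_mem {p : R} (hp : Prime p) :
    (algebraMap R F p)⁻¹ ∉ primeValSubring F p hp := by
  rintro ⟨a, b, hb, e⟩
  have hpF : algebraMap R F p ≠ 0 := by simpa using hp.ne_zero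
  apply hb
  refine ⟨a, IsFractionRing.injective R F ?_⟩
  rw [map_mul, ← e]
  field_simp

theorem primeValSubring_ne_top {p : R} (hp : Prime p) : primeValSubring F p hp ≠ ⊤ := by
  intro h
  exact inv_prime_not_mem (F := F) hp (h ▸ ValuationSubring.mem_top _)

/-- units of `R_(p)`. -/
theorem exists_of_mem_of_inv_mem {p : R} (hp : Prime p) {y : F} (hy0 : y ≠ 0)
    (hy : y ∈ primeValSubring F p hp) (hy' : y⁻¹ ∈ primeValSubring F p hp) :
    ∃ a b : R, ¬ p ∣ a ∧ ¬ p ∣ b ∧ y * algebraMap R F b = algebraMap R F a := by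
  obtain ⟨a, b, hb, e⟩ := hy
  obtain ⟨a', b', hb', e'⟩ := hy'
  refine ⟨a, b, ?_, hb, e⟩
  have key : a * a' = b * b' := by
    apply IsFractionRing.injective R F
    rw [map_mul, map_mul, ← e, ← e']
    field_simp
  intro hpa
  have : p ∣ b * b' := key ▸ hpa.mul_right a'
  exact (hp.dvd_or_dvd this).elim hb hb'

/-- every nonzero element of `F` is `p ^ n` times a `p`-adic unit; integral version. -/
theorem exists_pow_mul_of_mem {p : R} (hp : Prime p) {y : F} (hy0 : y ≠ 0)
    (hy : y ∈ primeValSubring F p hp) :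
    ∃ (n : ℕ) (u : F), u ∈ primeValSubring F p hp ∧ u⁻¹ ∈ primeValSubring F p hp ∧ u ≠ 0 ∧
      y = algebraMap R F p ^ n * u := by
  obtain ⟨a, b, hb, e⟩ := hy
  have hb0 : b ≠ 0 := fun h0 => hb (h0 ▸ dvd_zero p)
  have hbF : algebraMap R F b ≠ 0 := by simpa using hb0
  have ha0 : a ≠ 0 := by
    rintro rfl
    rw [map_zero] at e
    exact (mul_ne_zero hy0 hbF) e
  obtain ⟨a1, ha1, hpa1⟩ :=
    (FiniteMultiplicity.of_prime_left hp ha0).exists_eq_pow_mul_and_not_dvd
  have ha10 : a1 ≠ 0 := fun h0 => hpa1 (h0 ▸ dvd_zero p)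
  have ha1F : algebraMap R F a1 ≠ 0 := by simpa using ha10
  refine ⟨multiplicity p a, algebraMap R F a1 / algebraMap R F b, ⟨a1, b, hb, by field_simp⟩,
    ⟨b, a1, hpa1, by field_simp⟩, div_ne_zero ha1F hbF, ?_⟩
  have : y = algebraMap R F a / algebraMap R F b := by rw [← e]; field_simp
  rw [this]
  conv_lhs => rw [ha1]
  rw [map_mul, map_pow]
  ring

instance primeValSubring_isPrincipalIdealRing {p : R} (hp : Prime p) :
    IsPrincipalIdealRing (primeValSubring F p hp) := by
  classical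
  set V := primeValSubring F p hp with hV
  have hpF : algebraMap R F p ≠ 0 := by simpa using hp.ne_zero
  let P : V := ⟨algebraMap R F p, algebraMap_mem_primeValSubring hp p⟩
  have hP0 : P ≠ 0 := by
    intro h
    exact hpF (congrArg Subtype.val h)
  have hPnu : ¬ IsUnit P := by
    intro hu
    obtain ⟨Q, hQ⟩ := hu.exists_right_inv
    have : (Q : F) = (algebraMap R F p)⁻¹ := by
      have h1 : algebraMap R F p * (Q : F) = 1 := congrArg Subtype.val hQ
      field_simp
      linear_combination h1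
    exact inv_prime_not_mem (F := F) hp (this ▸ Q.2)
  have hfac : ∀ x : V, x ≠ 0 → ∃ n : ℕ, Associated (P ^ n) x := by
    intro x hx
    have hx0 : (x : F) ≠ 0 := fun h => hx (Subtype.ext h)
    obtain ⟨n, u, hu, hu', hu0, e⟩ := exists_pow_mul_of_mem hp hx0 x.2
    refine ⟨n, ⟨⟨⟨u, hu⟩, ⟨u⁻¹, hu'⟩, Subtype.ext (mul_inv_cancel₀ hu0),
      Subtype.ext (inv_mul_cancel₀ hu0)⟩, Subtype.ext ?_⟩⟩
    simp only [Units.val_mk, MulMemClass.coe_mul, SubmonoidClass.coe_pow]
    exact e.symm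
  have hirr : Irreducible P := by
    refine ⟨hPnu, ?_⟩
    intro a b hab
    have ha0 : a ≠ 0 := by rintro rfl; exact hP0 (by rw [hab, zero_mul])
    have hb0 : b ≠ 0 := by rintro rfl; exact hP0 (by rw [hab, mul_zero])
    obtain ⟨i, ua, hi⟩ := hfac a ha0
    obtain ⟨j, ub, hj⟩ := hfac b hb0
    rcases Nat.eq_zero_or_pos i with rfl | hi0
    · left; rw [← hi]; simp
    rcases Nat.eq_zero_or_pos j with rfl | hj0
    · right; rw [← hj]; simp
    exfalso
    obtain ⟨i, rfl⟩ : ∃ i', i = i' + 1 := ⟨i - 1, by omega⟩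
    obtain ⟨j, rfl⟩ : ∃ j', j = j' + 1 := ⟨j - 1, by omega⟩
    apply hPnu
    have : P * 1 = P * (P * (P ^ i * P ^ j * ua * ub)) := by
      rw [mul_one]
      conv_lhs => rw [hab, ← hi, ← hj]
      ring
    have h1 := mul_left_cancel₀ hP0 this
    exact IsUnit.of_mul_eq_one _ h1.symm
  have : IsDiscreteValuationRing V :=
    IsDiscreteValuationRing.ofHasUnitMulPowIrreducibleFactorization ⟨P, hirr, fun {x} hx => hfac x hx⟩
  infer_instance

end Fermat.Agent.S18.Abs
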