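import Mathlib

/-!
# `m`-th roots up to units in the fraction field of a UFD (KL-A, INJ-abs step (b))

`R` a UFD with fraction field `F`, `h ∈ F`.  If for every prime `p` of `R` some `g ^ m * h` is a
`p`-adic unit (a quotient `a / b` with `p ∤ a`, `p ∤ b`), then some `g ^ m * h` is a unit of `R`.
-/

namespace Fermat.Agent.S18.Abs

variable {R F : Type*} [CommRing R] [IsDomain R] [UniqueFactorizationMonoid R]
  [Field F] [Algebra R F] [IsFractionRing R F]

/-- the `p`-adic unit condition -/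
def PUnitUpToPow (R : Type*) {F : Type*} [CommRing R] [Field F] [Algebra R F] (m : ℕ) (h : F) :
    Prop :=
  ∀ p : R, Prime p → ∃ (g : F) (a b : R), g ≠ 0 ∧ ¬ p ∣ a ∧ ¬ p ∣ b ∧
    g ^ m * h * algebraMap R F b = algebraMap R F a

omit [UniqueFactorizationMonoid R] [IsDomain R] [IsFractionRing R F] in
theorem PUnitUpToPow.mul_pow {m : ℕ} {h : F} (H : PUnitUpToPow R m h) {t : F} (ht : t ≠ 0) :
    PUnitUpToPow R m (t ^ m * h) := by
  intro p hp
  obtain ⟨g, a, b, hg, ha, hb, e⟩ := H p hp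
  refine ⟨g * t⁻¹, a, b, mul_ne_zero hg (inv_ne_zero ht), ha, hb, ?_⟩
  rw [← e, _root_.mul_pow, inv_pow]
  have : t ^ m ≠ 0 := pow_ne_zero _ ht
  field_simp

theorem dvd_multiplicity_of_rel {m : ℕ} {p a0 b0 a b : R} (hp : Prime p) {g h : F} (hg : g ≠ 0)
    (hrel : g ^ m * h * algebraMap R F b = algebraMap R F a)
    (hh : h * algebraMap R F b0 = algebraMap R F a0)
    (ha : ¬ p ∣ a) (hb : ¬ p ∣ b) (hb0 : ¬ p ∣ b0) (ha0 : a0 ≠ 0) :
    m ∣ multiplicity p a0 := by
  obtain ⟨c, d, hd, rfl⟩ := IsFractionRing.div_surjective (A := R) g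
  have hd0 : d ≠ 0 := nonZeroDivisors.ne_zero hd
  have hc0 : c ≠ 0 := by
    rintro rfl
    simp at hg
  have hb00 : b0 ≠ 0 := fun h0 => hb0 (h0 ▸ dvd_zero p)
  have ha' : a ≠ 0 := fun h0 => ha (h0 ▸ dvd_zero p)
  have hb' : b ≠ 0 := fun h0 => hb (h0 ▸ dvd_zero p)
  have hinj : Function.Injective (algebraMap R F) := IsFractionRing.injective R F
  have hdF : algebraMap R F d ≠ 0 := by simpa using hd0
  have hb0F : algebraMap R F b0 ≠ 0 := by simpa using hb00
  have key : c ^ m * a0 * b = a * b0 * d ^ m := by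
    apply hinj
    simp only [map_mul, map_pow]
    rw [← hrel, ← hh, div_pow]
    field_simp
  have fin : ∀ x : R, x ≠ 0 → FiniteMultiplicity p x := fun x hx =>
    FiniteMultiplicity.of_prime_left hp hx
  have e1 : multiplicity p (c ^ m * a0 * b) = m * multiplicity p c + multiplicity p a0 := by
    rw [multiplicity_mul hp (fin _ (mul_ne_zero (mul_ne_zero (pow_ne_zero _ hc0) ha0) hb')),
      multiplicity_mul hp (fin _ (mul_ne_zero (pow_ne_zero _ hc0) ha0)),
      (fin c hc0).multiplicity_pow hp, multiplicity_eq_zero.2 hb, add_zero]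
  have e2 : multiplicity p (a * b0 * d ^ m) = m * multiplicity p d := by
    rw [multiplicity_mul hp (fin _ (mul_ne_zero (mul_ne_zero ha' hb00) (pow_ne_zero _ hd0))),
      multiplicity_mul hp (fin _ (mul_ne_zero ha' hb00)),
      (fin d hd0).multiplicity_pow hp, multiplicity_eq_zero.2 ha, multiplicity_eq_zero.2 hb0,
      zero_add, zero_add]
  rw [key, e2] at e1
  exact (Nat.dvd_add_right (dvd_mul_right m _)).1 ⟨_, e1.symm⟩

theorem exists_root_unit_aux (m : ℕ) :
    ∀ c : R, c ≠ 0 → ∀ a0 b0 : R, a0 * b0 = c → ∀ h : F,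
      h * algebraMap R F b0 = algebraMap R F a0 → PUnitUpToPow R m h →
      ∃ (g : F) (u : Rˣ), g ≠ 0 ∧ g ^ m * h = algebraMap R F u := by
  intro c
  induction c using (wellFounded_dvdNotUnit (α := R)).induction with
  | _ c ih =>
  intro hc a0 b0 hab h hh H
  have ha0 : a0 ≠ 0 := left_ne_zero_of_mul (hab ▸ hc)
  have hb0 : b0 ≠ 0 := right_ne_zero_of_mul (hab ▸ hc)
  have hb0F : algebraMap R F b0 ≠ 0 := by simpa using hb0
  by_cases hcu : IsUnit c
  · -- both units
    rw [← hab, IsUnit.mul_iff] at hcu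
    obtain ⟨ua, rfl⟩ := hcu.1
    obtain ⟨ub, rfl⟩ := hcu.2
    refine ⟨1, ua * ub⁻¹, one_ne_zero, ?_⟩
    rw [one_pow, one_mul, Units.val_mul, map_mul, ← hh, mul_assoc, ← map_mul]
    simp
  · obtain ⟨p, hpirr, hpc⟩ := WfDvdMonoid.exists_irreducible_factor hcu hc
    have hp : Prime p := hpirr.prime
    have hpF : algebraMap R F p ≠ 0 := by simpa using hp.ne_zero
    by_cases hpa : p ∣ a0
    · by_cases hpb : p ∣ b0
      · -- cancel `p`
        obtain ⟨a1, rfl⟩ := hpa
        obtain ⟨b1, rfl⟩ := hpb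
        have hc1 : a1 * b1 ≠ 0 :=
          mul_ne_zero (right_ne_zero_of_mul ha0) (right_ne_zero_of_mul hb0)
        refine ih (a1 * b1) ⟨hc1, p * p, ?_, by rw [← hab]; ring⟩ hc1 a1 b1 rfl h ?_ H
        · exact fun hu => hp.not_isUnit (isUnit_of_mul_isUnit_left hu)
        · rw [map_mul, map_mul] at hh
          apply mul_left_cancel₀ hpF
          linear_combination hh
      · -- `p ∣ a0`, `p ∤ b0`
        obtain ⟨g, a, b, hg, ha, hb, e⟩ := H p hp
        obtain ⟨k, hk⟩ := dvd_multiplicity_of_rel hp hg e hh ha hb hpb ha0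
        obtain ⟨a1, ha1, -⟩ :=
          (FiniteMultiplicity.of_prime_left hp ha0).exists_eq_pow_mul_and_not_dvd
        rw [hk] at ha1
        have hk0 : m * k ≠ 0 := by
          rw [← hk]; exact multiplicity_ne_zero.2 hpa
        have ha10 : a1 ≠ 0 := by
          rintro rfl; exact ha0 (by rw [ha1, mul_zero])
        have hc1 : a1 * b0 ≠ 0 := mul_ne_zero ha10 hb0
        have hdnu : DvdNotUnit (a1 * b0) c := by
          refine ⟨hc1, p ^ (m * k), ?_, by rw [← hab, ha1]; ring⟩
          rw [isUnit_pow_iff hk0]; exact hp.not_isUnit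
        set t : F := (algebraMap R F p ^ k)⁻¹ with ht
        have ht0 : t ≠ 0 := inv_ne_zero (pow_ne_zero _ hpF)
        obtain ⟨g1, u, hg1, e1⟩ := ih (a1 * b0) hdnu hc1 a1 b0 rfl (t ^ m * h) (by
          rw [mul_assoc, hh, ha1, map_mul, map_pow, ht, inv_pow, ← pow_mul, mul_comm k m]
          field_simp) (H.mul_pow ht0)
        exact ⟨g1 * t, u, mul_ne_zero hg1 ht0, by rw [← e1, mul_pow]; ring⟩
    · have hpb : p ∣ b0 := by
        rcases hp.dvd_or_dvd (hab ▸ hpc) with h1 | h1
        · exact absurd h1 hpa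
        · exact h1
      -- apply the multiplicity lemma to `h⁻¹`
      have ha0F : algebraMap R F a0 ≠ 0 := by simpa using ha0
      have hh0 : h ≠ 0 := by
        rintro rfl; rw [zero_mul] at hh; exact ha0F hh.symm
      obtain ⟨g, a, b, hg, ha, hb, e⟩ := H p hp
      have haF : algebraMap R F a ≠ 0 := by
        have : a ≠ 0 := fun h0 => ha (h0 ▸ dvd_zero p)
        simpa using this
      have hbF : algebraMap R F b ≠ 0 := by
        have : b ≠ 0 := fun h0 => hb (h0 ▸ dvd_zero p)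
        simpa using this
      obtain ⟨k, hk⟩ := dvd_multiplicity_of_rel (m := m) (h := h⁻¹) (g := g⁻¹) (a := b) (b := a)
        (a0 := b0) (b0 := a0) hp (inv_ne_zero hg)
        (by
          rw [← e, inv_pow]
          have : g ^ m ≠ 0 := pow_ne_zero _ hg
          field_simp)
        (by rw [← hh]; field_simp) hb ha hpa hb0
      obtain ⟨b1, hb1, -⟩ :=
        (FiniteMultiplicity.of_prime_left hp hb0).exists_eq_pow_mul_and_not_dvd
      rw [hk] at hb1
      have hk0 : m * k ≠ 0 := by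
        rw [← hk]; exact multiplicity_ne_zero.2 hpb
      have hb10 : b1 ≠ 0 := by
        rintro rfl; exact hb0 (by rw [hb1, mul_zero])
      have hc1 : a0 * b1 ≠ 0 := mul_ne_zero ha0 hb10
      have hdnu : DvdNotUnit (a0 * b1) c := by
        refine ⟨hc1, p ^ (m * k), ?_, by rw [← hab, hb1]; ring⟩
        rw [isUnit_pow_iff hk0]; exact hp.not_isUnit
      set t : F := algebraMap R F p ^ k with ht
      have ht0 : t ≠ 0 := pow_ne_zero _ hpF
      obtain ⟨g1, u, hg1, e1⟩ := ih (a0 * b1) hdnu hc1 a0 b1 rfl (t ^ m * h) (by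
        rw [← hh, hb1, map_mul, map_pow, ht, ← pow_mul, mul_comm k m]
        ring) (H.mul_pow ht0)
      exact ⟨g1 * t, u, mul_ne_zero hg1 ht0, by rw [← e1, mul_pow]; ring⟩

/-- **UFD root lemma.** -/
theorem exists_root_unit (m : ℕ) {h : F} (hh : h ≠ 0) (H : PUnitUpToPow R m h) :
    ∃ (g : F) (u : Rˣ), g ≠ 0 ∧ g ^ m * h = algebraMap R F u := by
  obtain ⟨a, b, hb, rfl⟩ := IsFractionRing.div_surjective (A := R) h
  have hb0 : b ≠ 0 := nonZeroDivisors.ne_zero hb
  have ha0 : a ≠ 0 := by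
    rintro rfl; simp at hh
  have hbF : algebraMap R F b ≠ 0 := by simpa using hb0
  exact exists_root_unit_aux m (a * b) (mul_ne_zero ha0 hb0) a b rfl _ (by field_simp) H

end Fermat.Agent.S18.Abs
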