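import Mathlib

/-!
# Principal-prime lemma (KL-A, INJ-abs step (a))

`R` local noetherian, `π` in the maximal ideal, `R ⧸ (π)` a principal ideal ring.
Every prime ideal not containing `π` is principal.  If moreover `R` is a domain and
`R ⧸ (π)` is a domain, then `R` is a unique factorisation domain.
-/

namespace Fermat.Agent.S18.Abs

open Ideal IsLocalRing

theorem prime_principal_of_quotient_pir {R : Type*} [CommRing R] [IsLocalRing R]
    [IsNoetherianRing R] (π : R) (hπ : π ∈ maximalIdeal R)
    [hP : IsPrincipalIdealRing (R ⧸ Ideal.span {π})]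
    (q : Ideal R) [hq : q.IsPrime] (hπq : π ∉ q) : ∃ g ∈ q, q = Ideal.span {g} := by
  classical
  set mk := Ideal.Quotient.mk (Ideal.span {π}) with hmk
  have hsurj : Function.Surjective mk := Ideal.Quotient.mk_surjective
  obtain ⟨gbar, hgbar⟩ := (hP.principal (q.map mk)).principal
  have hgmem : gbar ∈ q.map mk := by
    rw [hgbar]; exact Submodule.mem_span_singleton_self gbar
  obtain ⟨g, hgq, rfl⟩ := (Ideal.mem_map_iff_of_surjective mk hsurj).1 hgmem
  refine ⟨g, hgq, le_antisymm ?_ ((Ideal.span_singleton_le_iff_mem _).2 hgq)⟩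
  have hle : q ≤ Ideal.span {g} ⊔ (Ideal.span {π}) • q := by
    intro y hy
    have hy' : mk y ∈ q.map mk := Ideal.mem_map_of_mem mk hy
    rw [hgbar] at hy'
    obtain ⟨rbar, hr⟩ := (Submodule.mem_span_singleton).1 hy'
    obtain ⟨r, rfl⟩ := hsurj rbar
    have h1 : mk (y - r * g) = 0 := by
      rw [map_sub, map_mul, ← hr]; simp
    rw [hmk, Ideal.Quotient.eq_zero_iff_mem, Ideal.mem_span_singleton'] at h1
    obtain ⟨z, hz⟩ := h1
    have hzq : z ∈ q := by
      have : z * π ∈ q := by
        rw [hz]; exact q.sub_mem hy (q.mul_mem_left r hgq)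
      rcases hq.mem_or_mem this with h | h
      · exact h
      · exact absurd h hπq
    have : y = r * g + π * z := by
      have : y - r * g = π * z := by rw [← hz]; ring
      linear_combination this
    rw [this]
    refine Submodule.add_mem_sup (Ideal.mul_mem_left _ r (Ideal.mem_span_singleton_self g)) ?_
    exact Submodule.smul_mem_smul (Ideal.mem_span_singleton_self π) hzq
  refine Submodule.le_of_le_smul_of_le_jacobson_bot (IsNoetherian.noetherian q) ?_ hle
  rw [IsLocalRing.jacobson_eq_maximalIdeal ⊥ bot_ne_top]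
  exact (Ideal.span_singleton_le_iff_mem _).2 hπ

theorem ufd_of_quotient_pid {R : Type*} [CommRing R] [IsDomain R] [IsLocalRing R]
    [IsNoetherianRing R] (π : R) (hπ : π ∈ maximalIdeal R) (hπ0 : π ≠ 0)
    [IsPrincipalIdealRing (R ⧸ Ideal.span {π})] [IsDomain (R ⧸ Ideal.span {π})] :
    UniqueFactorizationMonoid R := by
  rw [UniqueFactorizationMonoid.iff_exists_prime_mem_of_isPrime]
  intro I hI hIp
  have hπprime : Prime π := by
    rw [← Ideal.span_singleton_prime hπ0]
    exact (Ideal.Quotient.isDomain_iff_prime _).1 inferInstance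
  by_cases h : π ∈ I
  · exact ⟨π, h, hπprime⟩
  · obtain ⟨g, hg, hIg⟩ := prime_principal_of_quotient_pir π hπ I h
    refine ⟨g, hg, ?_⟩
    have hg0 : g ≠ 0 := by
      rintro rfl
      apply hI
      rw [hIg]; simp
    rw [← Ideal.span_singleton_prime hg0, ← hIg]
    exact hIp

end Fermat.Agent.S18.Abs
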