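import Mathlib

/-!
# Finiteness of the Cech `H¹` (KL-A, INJ-abs step (d))

`I1` a module over `A0[x]`, `I2` a module over `A0[x⁻¹]`, both generating the same `A0[x, x⁻¹]`-module
`I12`; `I1` finitely generated.  Then `I12 / (I1 + I2)` is a finitely generated `A0`-module, hence
(for `A0` noetherian) its `w`-power torsion is killed by a fixed power of `w`.
-/

set_option autoImplicit false

namespace Fermat.Agent.S18.Abs

section Cech

variable {A0 F : Type*} [CommRing A0] [Field F] [Algebra A0 F]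

/-- `I12 ⊆ I1 + I2 + (a finitely generated module)`. -/
theorem cech_le_sup_span (x : F) (hx : x ≠ 0) (I1 I2 I12 : Submodule A0 F) (h1 : I1 ≤ I12)
    (hx1 : ∀ y ∈ I1, x * y ∈ I1) (hx2 : ∀ y ∈ I2, x⁻¹ * y ∈ I2)
    (s : Finset F)
    (hs : ∀ y ∈ I1, y ∈ Submodule.span A0 {z | ∃ (a : ℕ) (e : F), e ∈ s ∧ z = x ^ a * e})
    (hsI : ∀ e ∈ s, e ∈ I1)
    (h121 : ∀ y ∈ I12, ∃ n : ℕ, x ^ n * y ∈ I1)
    (h122 : ∀ y ∈ I12, ∃ n : ℕ, x⁻¹ ^ n * y ∈ I2) :
    ∃ t : Finset F, I12 ≤ (I1 ⊔ I2) ⊔ Submodule.span A0 (t : Set F) := by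
  classical
  have hN : ∀ e : F, ∃ n : ℕ, e ∈ s → x⁻¹ ^ n * e ∈ I2 := by
    intro e
    by_cases he : e ∈ s
    · obtain ⟨n, hn⟩ := h122 e (h1 (hsI e he))
      exact ⟨n, fun _ => hn⟩
    · exact ⟨0, fun h => absurd h he⟩
  choose N hN using hN
  have hpow1 : ∀ (a : ℕ), ∀ y ∈ I1, x ^ a * y ∈ I1 := by
    intro a
    induction a with
    | zero => intro y hy; simpa using hy
    | succ a ih =>
      intro y hy
      have : x ^ (a + 1) * y = x * (x ^ a * y) := by ring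
      rw [this]; exact hx1 _ (ih y hy)
  have hpow2 : ∀ (a : ℕ), ∀ y ∈ I2, x⁻¹ ^ a * y ∈ I2 := by
    intro a
    induction a with
    | zero => intro y hy; simpa using hy
    | succ a ih =>
      intro y hy
      have : x⁻¹ ^ (a + 1) * y = x⁻¹ * (x⁻¹ ^ a * y) := by ring
      rw [this]; exact hx2 _ (ih y hy)
  set t : Finset F := s.biUnion fun e => (Finset.range (N e)).image fun a => x⁻¹ ^ a * e with ht
  refine ⟨t, fun y hy => ?_⟩
  obtain ⟨n, hn⟩ := h121 y hy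
  set G : Submodule A0 F := (I1 ⊔ I2) ⊔ Submodule.span A0 (t : Set F) with hG
  have hI1 : I1 ≤ G := le_sup_left.trans le_sup_left
  have hI2 : I2 ≤ G := le_sup_right.trans le_sup_left
  have key : Submodule.span A0 {z | ∃ (a : ℕ) (e : F), e ∈ s ∧ z = x ^ a * e} ≤
      G.comap (LinearMap.mulLeft A0 (x⁻¹ ^ n)) := by
    rw [Submodule.span_le]
    rintro _ ⟨a, e, he, rfl⟩
    show x⁻¹ ^ n * (x ^ a * e) ∈ G
    rcases le_or_gt n a with hna | hna
    · obtain ⟨b, rfl⟩ := Nat.exists_eq_add_of_le hna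
      have : x⁻¹ ^ n * (x ^ (n + b) * e) = x ^ b * e := by
        rw [pow_add, inv_pow]
        field_simp
      rw [this]
      exact hI1 (hpow1 b e (hsI e he))
    · obtain ⟨b, rfl⟩ := Nat.exists_eq_add_of_le hna.le
      have h0 : x⁻¹ ^ (a + b) * (x ^ a * e) = x⁻¹ ^ b * e := by
        rw [pow_add, inv_pow, inv_pow]
        field_simp
      rw [h0]
      rcases le_or_gt (N e) b with hb | hb
      · obtain ⟨c, rfl⟩ := Nat.exists_eq_add_of_le hb
        have : x⁻¹ ^ (N e + c) * e = x⁻¹ ^ c * (x⁻¹ ^ N e * e) := by ring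
        rw [this]
        exact hI2 (hpow2 c _ (hN e he))
      · apply (le_sup_right : Submodule.span A0 (t : Set F) ≤ G)
        apply Submodule.subset_span
        rw [ht]
        simp only [Finset.coe_biUnion, Finset.coe_image, Set.mem_iUnion]
        exact ⟨e, he, b, by simpa using hb, rfl⟩
  have h2 := key (hs _ hn)
  have h3 : x⁻¹ ^ n * (x ^ n * y) = y := by
    rw [inv_pow]
    field_simp
  have h4 : x⁻¹ ^ n * (x ^ n * y) ∈ G := h2
  rwa [h3] at h4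

/-- bounded torsion in `(P + finitely generated) / P`. -/
theorem exists_torsion_bound_of_span [IsNoetherianRing A0] (w : A0) (P : Submodule A0 F)
    (t : Finset F) :
    ∃ k0 : ℕ, ∀ y ∈ P ⊔ Submodule.span A0 (t : Set F), ∀ k : ℕ, w ^ k • y ∈ P → w ^ k0 • y ∈ P := by
  classical
  set G' : Submodule A0 (F ⧸ P) := (Submodule.span A0 (t : Set F)).map P.mkQ with hG'
  have hfg : G'.FG := (Submodule.fg_span t.finite_toSet).map _
  have : IsNoetherian A0 G' := isNoetherian_of_fg_of_noetherian G' hfg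
  let K : ℕ →o Submodule A0 G' :=
    ⟨fun k => LinearMap.ker (w ^ k • (LinearMap.id : G' →ₗ[A0] G')), by
      intro a b hab z hz
      obtain ⟨c, rfl⟩ := Nat.exists_eq_add_of_le hab
      simp only [LinearMap.mem_ker, LinearMap.smul_apply, LinearMap.id_apply] at hz ⊢
      rw [pow_add, mul_comm, mul_smul, hz, smul_zero]⟩
  obtain ⟨k0, hk0⟩ := monotone_stabilizes_iff_noetherian.mpr ‹IsNoetherian A0 G'› K
  refine ⟨k0, fun y hy k hk => ?_⟩
  have hyG : P.mkQ y ∈ G' := by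
    obtain ⟨p, hp, z, hz, rfl⟩ := Submodule.mem_sup.mp hy
    have hp0 : P.mkQ p = 0 := (Submodule.Quotient.mk_eq_zero P).mpr hp
    rw [map_add, hp0, zero_add]
    exact Submodule.mem_map_of_mem hz
  have h1 : (⟨P.mkQ y, hyG⟩ : G') ∈ K k := by
    show (⟨P.mkQ y, hyG⟩ : G') ∈ LinearMap.ker (w ^ k • (LinearMap.id : G' →ₗ[A0] G'))
    simp only [LinearMap.mem_ker, LinearMap.smul_apply, LinearMap.id_apply]
    ext
    show w ^ k • P.mkQ y = 0
    rw [← map_smul]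
    exact (Submodule.Quotient.mk_eq_zero P).mpr hk
  have h2 : (⟨P.mkQ y, hyG⟩ : G') ∈ K k0 := by
    rw [hk0 (max k k0) (le_max_right _ _)]
    exact K.monotone (le_max_left _ _) h1
  have h3 : w ^ k0 • (⟨P.mkQ y, hyG⟩ : G') = 0 := by
    have h2' : (⟨P.mkQ y, hyG⟩ : G') ∈ LinearMap.ker (w ^ k0 • (LinearMap.id : G' →ₗ[A0] G')) := h2
    simpa only [LinearMap.mem_ker, LinearMap.smul_apply, LinearMap.id_apply] using h2'
  have h4 : w ^ k0 • P.mkQ y = 0 := congrArg Subtype.val h3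
  rw [← map_smul] at h4
  exact (Submodule.Quotient.mk_eq_zero P).mp h4

/-- **Cech finiteness**: the `w`-power torsion of `I12 / (I1 + I2)` is bounded. -/
theorem exists_torsion_bound [IsNoetherianRing A0] (x : F) (hx : x ≠ 0) (w : A0)
    (I1 I2 I12 : Submodule A0 F) (h1 : I1 ≤ I12)
    (hx1 : ∀ y ∈ I1, x * y ∈ I1) (hx2 : ∀ y ∈ I2, x⁻¹ * y ∈ I2)
    (s : Finset F)
    (hs : ∀ y ∈ I1, y ∈ Submodule.span A0 {z | ∃ (a : ℕ) (e : F), e ∈ s ∧ z = x ^ a * e})
    (hsI : ∀ e ∈ s, e ∈ I1)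
    (h121 : ∀ y ∈ I12, ∃ n : ℕ, x ^ n * y ∈ I1)
    (h122 : ∀ y ∈ I12, ∃ n : ℕ, x⁻¹ ^ n * y ∈ I2) :
    ∃ k0 : ℕ, ∀ y ∈ I12, ∀ k : ℕ, w ^ k • y ∈ I1 ⊔ I2 → w ^ k0 • y ∈ I1 ⊔ I2 := by
  obtain ⟨t, ht⟩ := cech_le_sup_span x hx I1 I2 I12 h1 hx1 hx2 s hs hsI h121 h122
  obtain ⟨k0, hk0⟩ := exists_torsion_bound_of_span w (I1 ⊔ I2) t
  exact ⟨k0, fun y hy => hk0 y (ht hy)⟩

/-- a module generated by `s` over `A0[x]` is generated over `A0` by the `x ^ a * e`, `e ∈ s`. -/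
theorem mem_span_pow_mul (x : F) (s : Finset F) {y : F}
    (hy : y ∈ Submodule.span (Algebra.adjoin A0 {x}) (s : Set F)) :
    y ∈ Submodule.span A0 {z | ∃ (a : ℕ) (e : F), e ∈ s ∧ z = x ^ a * e} := by
  set T : Submodule A0 F := Submodule.span A0 {z | ∃ (a : ℕ) (e : F), e ∈ s ∧ z = x ^ a * e} with hT
  have hxT : T ≤ T.comap (LinearMap.mulLeft A0 x) := by
    rw [hT, Submodule.span_le]
    rintro _ ⟨a, e, he, rfl⟩
    show x * (x ^ a * e) ∈ Submodule.span A0 {z | ∃ (a : ℕ) (e : F), e ∈ s ∧ z = x ^ a * e}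
    exact Submodule.subset_span ⟨a + 1, e, he, by ring⟩
  have hr : ∀ r ∈ Algebra.adjoin A0 {x}, ∀ z ∈ T, r * z ∈ T := by
    intro r hr
    induction hr using Algebra.adjoin_induction with
    | mem r hr =>
      obtain rfl : r = x := hr
      exact fun z hz => hxT hz
    | algebraMap c =>
      intro z hz
      rw [← Algebra.smul_def]
      exact T.smul_mem c hz
    | add r r' _ _ ih ih' =>
      intro z hz
      rw [add_mul]
      exact T.add_mem (ih z hz) (ih' z hz)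
    | mul r r' _ _ ih ih' =>
      intro z hz
      rw [mul_assoc]
      exact ih _ (ih' z hz)
  induction hy using Submodule.span_induction with
  | mem e he => exact Submodule.subset_span ⟨0, e, he, by simp⟩
  | zero => exact T.zero_mem
  | add a b _ _ ha hb => exact T.add_mem ha hb
  | smul r z _ hz => exact hr r.1 r.2 z hz

/-- **Cech finiteness**, with `I1` finitely generated over `A0[x]`. -/
theorem exists_torsion_bound' [IsNoetherianRing A0] (x : F) (hx : x ≠ 0) (w : A0)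
    (I1 I2 I12 : Submodule A0 F) (h1 : I1 ≤ I12)
    (hx1 : ∀ y ∈ I1, x * y ∈ I1) (hx2 : ∀ y ∈ I2, x⁻¹ * y ∈ I2)
    (s : Finset F)
    (hs : ∀ y ∈ I1, y ∈ Submodule.span (Algebra.adjoin A0 {x}) (s : Set F))
    (hsI : ∀ e ∈ s, e ∈ I1)
    (h121 : ∀ y ∈ I12, ∃ n : ℕ, x ^ n * y ∈ I1)
    (h122 : ∀ y ∈ I12, ∃ n : ℕ, x⁻¹ ^ n * y ∈ I2) :
    ∃ k0 : ℕ, ∀ y ∈ I12, ∀ k : ℕ, w ^ k • y ∈ I1 ⊔ I2 → w ^ k0 • y ∈ I1 ⊔ I2 :=
  exists_torsion_bound x hx w I1 I2 I12 h1 hx1 hx2 s (fun y hy => mem_span_pow_mul x s (hs y hy))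
    hsI h121 h122

end Cech

end Fermat.Agent.S18.Abs
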