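import Mathlib

/-!
# Abstract Newton iteration and Cech gluing (KL-A, INJ-abs steps (c), (d-glue))

Everything happens inside one commutative ring `O` (think: the valuation ring of the Gauss
valuation `w`), with a distinguished element `π`.  Congruences are divisibility statements in `O`.
-/

namespace Fermat.Agent.S18.Abs

section Newton

variable {O : Type*} [CommRing O]

theorem sat_pow {π : O} {B : AddSubgroup O} (hsat : ∀ z, π * z ∈ B → z ∈ B) :
    ∀ (k : ℕ) (z : O), π ^ k * z ∈ B → z ∈ B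
  | 0, z, h => by simpa using h
  | k + 1, z, h => by
      apply sat_pow hsat k z
      apply hsat
      have : π * (π ^ k * z) = π ^ (k + 1) * z := by ring
      rw [this]; exact h

/-- binomial expansion up to second order -/
theorem add_pow_expand (x y : O) (m : ℕ) :
    ∃ r : O, (x + y) ^ m = x ^ m + (m : O) * x ^ (m - 1) * y + r * y ^ 2 := by
  obtain ⟨r, hr⟩ := Polynomial.binomExpansion ((Polynomial.X : Polynomial O) ^ m) x y
  refine ⟨r, ?_⟩
  simpa [Polynomial.derivative_X_pow, Polynomial.eval_pow, Polynomial.eval_mul] using hr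

/-- if `π ∣ a - 1` then `π ∣ a ^ n - 1`. -/
theorem dvd_pow_sub_one {π a : O} (h : π ∣ a - 1) (n : ℕ) : π ∣ a ^ n - 1 :=
  h.trans (by simpa using sub_dvd_pow_sub_pow a 1 n)

/-- **Abstract Newton iteration.**  `B` a `π`-saturated subring of `O`, `I` an additive subgroup
stable under `π`, such that `a ^ m * h ∈ B` for `a ∈ I`, and `I → B / π` is onto.
Then `h⁻¹` has approximate `m`-th roots in `I` to any precision. -/
theorem newton (π h : O) (m : ℕ) (B : Subring O) (I : AddSubgroup O)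
    (hsat : ∀ z, π * z ∈ B → z ∈ B)
    (hπI : ∀ c ∈ I, π * c ∈ I)
    (hprod : ∀ a ∈ I, a ^ m * h ∈ B)
    (hsurj : ∀ b ∈ B, ∃ c ∈ I, π ∣ c - b)
    (minv : O) (hminv : minv ∈ B) (hm : (m : O) * minv = 1)
    (hh : π ∣ h - 1) :
    ∀ k : ℕ, ∃ a ∈ I, π ∣ a - 1 ∧ π ^ (k + 1) ∣ a ^ m * h - 1 := by
  have hπkI : ∀ (k : ℕ), ∀ c ∈ I, π ^ k * c ∈ I := by
    intro k
    induction k with
    | zero => intro c hc; simpa using hc
    | succ k ih =>
      intro c hc
      have : π ^ (k + 1) * c = π * (π ^ k * c) := by ring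
      rw [this]; exact hπI _ (ih c hc)
  intro k
  induction k with
  | zero =>
    obtain ⟨a, haI, ha⟩ := hsurj 1 B.one_mem
    refine ⟨a, haI, ha, ?_⟩
    have h1 : π ∣ a ^ m - 1 := dvd_pow_sub_one ha m
    have : a ^ m * h - 1 = (a ^ m - 1) * h + (h - 1) := by ring
    rw [pow_one, this]
    exact dvd_add (h1.mul_right h) hh
  | succ k ih =>
    obtain ⟨a, haI, ha1, z, hz⟩ := ih
    -- `z ∈ B`
    have hzB : z ∈ B := by
      apply sat_pow (B := B.toAddSubgroup) hsat (k + 1) z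
      rw [← hz]
      exact B.sub_mem (hprod a haI) B.one_mem
    obtain ⟨c, hcI, hc⟩ := hsurj (-(minv * z)) (B.neg_mem (B.mul_mem hminv hzB))
    refine ⟨a + π ^ (k + 1) * c, I.add_mem haI (hπkI _ c hcI), ?_, ?_⟩
    · have : a + π ^ (k + 1) * c - 1 = (a - 1) + π * (π ^ k * c) := by ring
      rw [this]
      exact dvd_add ha1 (dvd_mul_right _ _)
    · obtain ⟨r, hr⟩ := add_pow_expand a (π ^ (k + 1) * c) m
      obtain ⟨e1, he1⟩ : π ∣ a ^ (m - 1) * h - 1 := by
        have h1 : π ∣ a ^ (m - 1) - 1 := dvd_pow_sub_one ha1 (m - 1)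
        have : a ^ (m - 1) * h - 1 = (a ^ (m - 1) - 1) * h + (h - 1) := by ring
        rw [this]
        exact dvd_add (h1.mul_right h) hh
      obtain ⟨e2, he2⟩ := hc
      -- c = -(minv z) + π e2 ;  a^(m-1) h = 1 + π e1
      have hc' : c = -(minv * z) + π * e2 := by linear_combination he2
      have hah : a ^ (m - 1) * h = 1 + π * e1 := by linear_combination he1
      have hamh : a ^ m * h = 1 + π ^ (k + 1) * z := by linear_combination hz
      refine ⟨(m : O) * e2 + (m : O) * c * e1 + r * π ^ k * c ^ 2 * h, ?_⟩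
      have key : (a + π ^ (k + 1) * c) ^ m * h - 1
          = (a ^ m * h - 1) + (m : O) * (a ^ (m - 1) * h) * (π ^ (k + 1) * c)
            + r * (π ^ (k + 1) * c) ^ 2 * h := by
        rw [hr]; ring
      rw [key, hamh, hah]
      have hz' : (m : O) * c = - z + (m : O) * π * e2 := by
        rw [hc']
        linear_combination (-z) * hm
      have e : (1 + π ^ (k + 1) * z - 1) + (m : O) * (1 + π * e1) * (π ^ (k + 1) * c)
            + r * (π ^ (k + 1) * c) ^ 2 * h
          = π ^ (k + 1) * (z + (m : O) * c) + π ^ (k + 1 + 1) * ((m : O) * c * e1)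
            + π ^ (k + 1 + 1) * (r * π ^ k * c ^ 2 * h) := by ring
      rw [e, hz']
      ring

/-- uniqueness of approximate roots: `π` in the Jacobson radical (`1 + π x` is a unit). -/
theorem approx_root_unique (π h : O) (m : ℕ)
    (hjac : ∀ x : O, π ∣ x - 1 → IsUnit x)
    (minv : O) (hm : (m : O) * minv = 1) (hh : π ∣ h - 1)
    {a b : O} (ha : π ∣ a - 1) (hb : π ∣ b - 1) {k : ℕ}
    (hak : π ^ k ∣ a ^ m * h - 1) (hbk : π ^ k ∣ b ^ m * h - 1) : π ^ k ∣ a - b := by
  -- a^m - b^m = (a - b) * S,  S ≡ m mod π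
  set S : O := ∑ i ∈ Finset.range m, a ^ i * b ^ (m - 1 - i) with hS
  have hfac : S * (a - b) = a ^ m - b ^ m := (Commute.all a b).geom_sum₂_mul m
  have hSm : π ∣ S - (m : O) := by
    have : S - (m : O) = ∑ i ∈ Finset.range m, (a ^ i * b ^ (m - 1 - i) - 1) := by
      rw [Finset.sum_sub_distrib]; simp [hS]
    rw [this]
    refine Finset.dvd_sum fun i _ => ?_
    have h1 := dvd_pow_sub_one ha i
    have h2 := dvd_pow_sub_one hb (m - 1 - i)
    have : a ^ i * b ^ (m - 1 - i) - 1 = (a ^ i - 1) * b ^ (m - 1 - i) + (b ^ (m - 1 - i) - 1) := by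
      ring
    rw [this]
    exact dvd_add (h1.mul_right _) h2
  have hU : IsUnit (S * h * minv) := by
    apply hjac
    obtain ⟨s, hs⟩ := hSm
    obtain ⟨t, ht⟩ := hh
    refine ⟨s * h * minv + (m : O) * minv * t, ?_⟩
    have hs' : S = (m : O) + π * s := by linear_combination hs
    have ht' : h = 1 + π * t := by linear_combination ht
    rw [hs']
    have : ((m : O) + π * s) * h * minv - 1
        = (m : O) * minv * h - 1 + π * (s * h * minv) := by ring
    rw [this, hm]
    linear_combination ht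
  have hd : π ^ k ∣ (S * h * minv) * (a - b) := by
    have : (S * h * minv) * (a - b) = ((a ^ m * h - 1) - (b ^ m * h - 1)) * minv := by
      have : (S * h * minv) * (a - b) = (S * (a - b)) * h * minv := by ring
      rw [this, hfac]; ring
    rw [this]
    exact (dvd_sub hak hbk).mul_right _
  exact (hU.dvd_mul_left).1 hd

/-- **Cech gluing.** -/
theorem cech_glue (π : O) (I1 I2 I12 : AddSubgroup O) (h1 : I1 ≤ I12) (h2 : I2 ≤ I12)
    (hsat12 : ∀ z, π * z ∈ I12 → z ∈ I12)
    (hπ1 : ∀ c ∈ I1, π * c ∈ I1) (hπ2 : ∀ c ∈ I2, π * c ∈ I2)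
    (k0 : ℕ) (htors : ∀ y ∈ I12, ∀ k : ℕ, π ^ k * y ∈ I1 ⊔ I2 → π ^ k0 * y ∈ I1 ⊔ I2)
    {a b : O} (ha : a ∈ I1) (hb : b ∈ I2) {k : ℕ} (hk : k0 < k) (hab : π ^ k ∣ a - b)
    (ha1 : π ∣ a - 1) : ∃ s, s ∈ I1 ∧ s ∈ I2 ∧ π ∣ s - 1 := by
  obtain ⟨y, hy⟩ := hab
  have hy12 : y ∈ I12 := by
    apply sat_pow hsat12 k y
    rw [← hy]; exact I12.sub_mem (h1 ha) (h2 hb)
  have hmem : π ^ k * y ∈ I1 ⊔ I2 := by
    rw [← hy, sub_eq_add_neg]
    exact AddSubgroup.add_mem_sup ha (I2.neg_mem hb)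
  obtain ⟨y1, hy1, y2, hy2, hsum⟩ := AddSubgroup.mem_sup.1 (htors y hy12 k hmem)
  have hπk : ∀ (j : ℕ) (I : AddSubgroup O), (∀ c ∈ I, π * c ∈ I) → ∀ c ∈ I, π ^ j * c ∈ I := by
    intro j I hI
    induction j with
    | zero => intro c hc; simpa using hc
    | succ j ih =>
      intro c hc
      have : π ^ (j + 1) * c = π * (π ^ j * c) := by ring
      rw [this]; exact hI _ (ih c hc)
  obtain ⟨d, rfl⟩ : ∃ d, k = k0 + (d + 1) := ⟨k - k0 - 1, by omega⟩
  refine ⟨a - π ^ (d + 1) * y1, I1.sub_mem ha (hπk _ I1 hπ1 y1 hy1), ?_, ?_⟩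
  · have : a - π ^ (d + 1) * y1 = b + π ^ (d + 1) * y2 := by
      have e : π ^ (k0 + (d + 1)) * y = π ^ (d + 1) * (π ^ k0 * y) := by ring
      rw [e, ← hsum] at hy
      linear_combination hy
    rw [this]
    exact I2.add_mem hb (hπk _ I2 hπ2 y2 hy2)
  · have : a - π ^ (d + 1) * y1 - 1 = (a - 1) - π * (π ^ d * y1) := by ring
    rw [this]
    exact dvd_sub ha1 (dvd_mul_right _ _)

end Newton

end Fermat.Agent.S18.Abs
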