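import Mathlib
import Fermat.Agent.S18.Abs.PrincipalPrime
import Fermat.Agent.S18.Abs.UfdRoot
import Fermat.Agent.S18.Abs.PrimeVal

/-!
# Local generator (KL-A, INJ-abs step (b))

`B` noetherian domain with fraction field `F`, `O` a valuation subring of `F` containing `B`,
`π ∈ B` with `B ∩ π O = π B` (QEP).  `𝔫` a prime of `B` containing `π` such that `B_𝔫 / π` is a
principal ideal domain.  If `h ∈ O^×` has "order divisible by `m`" at every discrete valuation
subring of `F` containing `B[1/π]`, then `g ^ m * h = a / b` with `a, b ∈ B \ 𝔫`.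
-/

namespace Fermat.Agent.S18.Abs

open IsLocalRing

/-- the divisibility hypothesis: `m ∣ ord_V h` for every discrete valuation subring `V ⊇ B[1/π]`. -/
def DivHyp (B : Type*) {F : Type*} [CommRing B] [Field F] [Algebra B F] (π : B) (m : ℕ) (h : F) :
    Prop :=
  ∀ V : ValuationSubring F, IsPrincipalIdealRing V → V ≠ ⊤ →
    (∀ b : B, algebraMap B F b ∈ V) → (algebraMap B F π)⁻¹ ∈ V →
      ∃ g : F, g ≠ 0 ∧ g ^ m * h ∈ V ∧ (g ^ m * h)⁻¹ ∈ V

variable {B F : Type*} [CommRing B] [IsDomain B] [IsNoetherianRing B] [Field F] [Algebra B F]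
  [IsFractionRing B F]

theorem exists_local_root (O : ValuationSubring F) (π : B) (hπ0 : π ≠ 0)
    (hQEP : ∀ b : B, algebraMap B F b / algebraMap B F π ∈ O → π ∣ b)
    (hBO : ∀ b : B, algebraMap B F b ∈ O)
    (hOmax : ∀ y ∈ O, y⁻¹ ∉ O → y / algebraMap B F π ∈ O)
    (m : ℕ) (h : F) (hh0 : h ≠ 0) (hhO : h ∈ O) (hhO' : h⁻¹ ∈ O)
    (hdiv : DivHyp B π m h)
    (𝔫 : Ideal B) [𝔫.IsPrime] (hπ𝔫 : π ∈ 𝔫)
    (R : Type*) [CommRing R] [Algebra B R] [IsLocalization.AtPrime R 𝔫] [Algebra R F]
    [IsScalarTower B R F] [IsFractionRing R F]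
    [IsDomain (R ⧸ Ideal.span {algebraMap B R π})]
    [IsPrincipalIdealRing (R ⧸ Ideal.span {algebraMap B R π})] :
    ∃ (g : F) (a b : B), g ≠ 0 ∧ a ∉ 𝔫 ∧ b ∉ 𝔫 ∧
      g ^ m * h * algebraMap B F b = algebraMap B F a := by
  classical
  have : IsDomain R := IsLocalization.isDomain_of_le_nonZeroDivisors (R := B) (S := R)
    (M := 𝔫.primeCompl) 𝔫.primeCompl_le_nonZeroDivisors
  have : IsLocalRing R := IsLocalization.AtPrime.isLocalRing R 𝔫
  have : IsNoetherianRing R := IsLocalization.isNoetherianRing 𝔫.primeCompl R inferInstance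
  set πR : R := algebraMap B R π with hπR
  have hinjBR : Function.Injective (algebraMap B R) :=
    IsLocalization.injective R 𝔫.primeCompl_le_nonZeroDivisors
  have hπR0 : πR ≠ 0 := by
    rw [hπR]; exact (map_ne_zero_iff _ hinjBR).2 hπ0
  have hπRmax : πR ∈ maximalIdeal R := by
    rw [hπR, IsLocalization.AtPrime.to_map_mem_maximal_iff R 𝔫]
    exact hπ𝔫
  have : UniqueFactorizationMonoid R := ufd_of_quotient_pid πR hπRmax hπR0
  have hπRprime : Prime πR := by
    rw [← Ideal.span_singleton_prime hπR0]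
    exact (Ideal.Quotient.isDomain_iff_prime _).1 inferInstance
  have hπF : algebraMap B F π ≠ 0 := by
    simpa using hπ0
  have hmapπ : algebraMap R F πR = algebraMap B F π := by
    rw [hπR, ← IsScalarTower.algebraMap_apply]
  -- QEP for `R`
  have hQEPR : ∀ r : R, algebraMap R F r / algebraMap B F π ∈ O → πR ∣ r := by
    intro r hr
    obtain ⟨b, s, rfl⟩ := IsLocalization.exists_mk'_eq 𝔫.primeCompl r
    have hs0 : (s : B) ≠ 0 := fun h0 => s.2 (h0 ▸ 𝔫.zero_mem)
    have hsF : algebraMap B F s ≠ 0 := by simpa using hs0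
    have e : algebraMap R F (IsLocalization.mk' R b s) = algebraMap B F b / algebraMap B F s := by
      rw [eq_div_iff hsF, IsScalarTower.algebraMap_apply B R F (s : B), ← map_mul,
        IsLocalization.mk'_spec, ← IsScalarTower.algebraMap_apply]
    have : algebraMap B F b / algebraMap B F π ∈ O := by
      have h2 := O.mul_mem _ _ (hBO s) hr
      rw [e] at h2
      convert h2 using 1
      field_simp
    obtain ⟨c, rfl⟩ := hQEP b this
    refine ⟨IsLocalization.mk' R c s, ?_⟩
    rw [hπR, ← IsLocalization.mul_mk'_eq_mk'_of_mul]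
  have hRO : ∀ r : R, algebraMap R F r ∈ O := by
    intro r
    obtain ⟨b, s, rfl⟩ := IsLocalization.exists_mk'_eq 𝔫.primeCompl r
    have hs0 : (s : B) ≠ 0 := fun h0 => s.2 (h0 ▸ 𝔫.zero_mem)
    have hsF : algebraMap B F s ≠ 0 := by simpa using hs0
    have e : algebraMap R F (IsLocalization.mk' R b s) = algebraMap B F b * (algebraMap B F s)⁻¹ := by
      rw [← div_eq_mul_inv, eq_div_iff hsF, IsScalarTower.algebraMap_apply B R F (s : B), ← map_mul,
        IsLocalization.mk'_spec, ← IsScalarTower.algebraMap_apply]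
    rw [e]
    refine O.mul_mem _ _ (hBO b) ?_
    by_contra hcon
    obtain ⟨c, hc⟩ := hQEP s (hOmax _ (hBO s) hcon)
    exact s.2 (hc ▸ 𝔫.mul_mem_right c hπ𝔫)
  -- the `p`-adic unit hypothesis
  have H : PUnitUpToPow R m h := by
    intro p hp
    by_cases hpπ : p ∣ πR
    · -- `p ~ π`
      have hass : Associated p πR := hp.associated_of_dvd hπRprime hpπ
      obtain ⟨a, b, hab, e⟩ := IsFractionRing.exists_reduced_fraction R h
      have hb0 : (b : R) ≠ 0 := nonZeroDivisors.ne_zero b.2
      have hbF : algebraMap R F b ≠ 0 := by simp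
      rw [IsFractionRing.mk'_eq_div] at e
      have e' : h * algebraMap R F b = algebraMap R F a := by rw [← e]; field_simp
      refine ⟨1, a, b, one_ne_zero, ?_, ?_, by rw [one_pow, one_mul, e']⟩
      · intro hpa
        have hπa : πR ∣ a := hass.symm.dvd.trans hpa
        obtain ⟨a', ha'⟩ := id hπa
        have hπb : πR ∣ (b : R) := by
          apply hQEPR
          have : algebraMap R F b / algebraMap B F π = h⁻¹ * algebraMap R F a' := by
            rw [← hmapπ] at hπF ⊢
            have : algebraMap R F b = h⁻¹ * algebraMap R F a := by rw [← e']; field_simp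
            rw [this, ha', map_mul]
            field_simp
          rw [this]
          exact O.mul_mem _ _ hhO' (hRO a')
        exact hπRprime.not_isUnit (hab hπa hπb)
      · intro hpb
        have hπb : πR ∣ (b : R) := hass.symm.dvd.trans hpb
        obtain ⟨b', hb'⟩ := id hπb
        have hπa : πR ∣ a := by
          apply hQEPR
          have : algebraMap R F a / algebraMap B F π = h * algebraMap R F b' := by
            rw [← hmapπ] at hπF ⊢
            rw [← e', hb', map_mul]
            field_simp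
          rw [this]
          exact O.mul_mem _ _ hhO (hRO b')
        exact hπRprime.not_isUnit (hab hπa hπb)
    · set V := primeValSubring F p hp
      obtain ⟨g, hg, h1, h2⟩ := hdiv V inferInstance (primeValSubring_ne_top hp)
        (fun b => by
          rw [IsScalarTower.algebraMap_apply B R F]
          exact algebraMap_mem_primeValSubring hp _)
        (by rw [← hmapπ]; exact inv_mem_primeValSubring hp hpπ)
      obtain ⟨a, b, ha, hb, e⟩ :=
        exists_of_mem_of_inv_mem hp (mul_ne_zero (pow_ne_zero _ hg) hh0) h1 h2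
      exact ⟨g, a, b, hg, ha, hb, e⟩
  obtain ⟨g, u, hg, e⟩ := exists_root_unit m hh0 H
  obtain ⟨a, s, hu⟩ := IsLocalization.exists_mk'_eq 𝔫.primeCompl (u : R)
  refine ⟨g, a, s, hg, ?_, s.2, ?_⟩
  · have : IsUnit (IsLocalization.mk' R a s) := hu ▸ u.isUnit
    exact (IsLocalization.AtPrime.isUnit_mk'_iff R 𝔫 a s).1 this
  · rw [e, ← hu, IsScalarTower.algebraMap_apply B R F (s : B), ← map_mul,
      IsLocalization.mk'_spec, ← IsScalarTower.algebraMap_apply]

end Fermat.Agent.S18.Abs
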