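import Mathlib
import Fermat.Agent.S18.Abs.LocalGen

/-!
# Local generator with an intrinsic regularity hypothesis (KL-A, INJ-abs step (b))
-/

namespace Fermat.Agent.S18.Abs

open IsLocalRing

/-- intrinsic regularity at `𝔫`: the maximal ideal of `B_𝔫` is generated by `π` and one more
element. -/
def RegAt {B : Type*} [CommRing B] (π : B) (𝔫 : Ideal B) : Prop :=
  ∃ t ∈ 𝔫, ∀ y ∈ 𝔫, ∃ s, s ∉ 𝔫 ∧ s * y ∈ Ideal.span {π, t}

set_option linter.unusedSectionVars false

variable {B F : Type*} [CommRing B] [IsDomain B] [Field F] [Algebra B F]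
  [IsFractionRing B F]

theorem loc_mem_O (O : ValuationSubring F) (π : B)
    (hQEP : ∀ b : B, algebraMap B F b / algebraMap B F π ∈ O → π ∣ b)
    (hBO : ∀ b : B, algebraMap B F b ∈ O)
    (hOmax : ∀ y ∈ O, y⁻¹ ∉ O → y / algebraMap B F π ∈ O)
    (𝔫 : Ideal B) [𝔫.IsPrime] (hπ𝔫 : π ∈ 𝔫)
    (R : Type*) [CommRing R] [Algebra B R] [IsLocalization.AtPrime R 𝔫] [Algebra R F]
    [IsScalarTower B R F] (r : R) : algebraMap R F r ∈ O := by
  obtain ⟨b, s, rfl⟩ := IsLocalization.exists_mk'_eq 𝔫.primeCompl r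
  have hs0 : (s : B) ≠ 0 := fun h0 => s.2 (h0 ▸ 𝔫.zero_mem)
  have hsF : algebraMap B F s ≠ 0 := by simpa using hs0
  have e : algebraMap R F (IsLocalization.mk' R b s) = algebraMap B F b * (algebraMap B F s)⁻¹ := by
    rw [← div_eq_mul_inv, eq_div_iff hsF, IsScalarTower.algebraMap_apply B R F (s : B), ← map_mul,
      IsLocalization.mk'_spec, ← IsScalarTower.algebraMap_apply]
  rw [e]
  refine O.mul_mem _ _ (hBO b) ?_
  by_contra hcon
  obtain ⟨c, hc⟩ := hQEP s (hOmax _ (hBO s) hcon)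
  exact s.2 (hc ▸ 𝔫.mul_mem_right c hπ𝔫)

theorem loc_qep (O : ValuationSubring F) (π : B)
    (hQEP : ∀ b : B, algebraMap B F b / algebraMap B F π ∈ O → π ∣ b)
    (hBO : ∀ b : B, algebraMap B F b ∈ O)
    (𝔫 : Ideal B) [𝔫.IsPrime]
    (R : Type*) [CommRing R] [Algebra B R] [IsLocalization.AtPrime R 𝔫] [Algebra R F]
    [IsScalarTower B R F] (r : R) (hr : algebraMap R F r / algebraMap B F π ∈ O) :
    algebraMap B R π ∣ r := by
  obtain ⟨b, s, rfl⟩ := IsLocalization.exists_mk'_eq 𝔫.primeCompl r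
  have hs0 : (s : B) ≠ 0 := fun h0 => s.2 (h0 ▸ 𝔫.zero_mem)
  have hsF : algebraMap B F s ≠ 0 := by simpa using hs0
  have e : algebraMap R F (IsLocalization.mk' R b s) = algebraMap B F b / algebraMap B F s := by
    rw [eq_div_iff hsF, IsScalarTower.algebraMap_apply B R F (s : B), ← map_mul,
      IsLocalization.mk'_spec, ← IsScalarTower.algebraMap_apply]
  have : algebraMap B F b / algebraMap B F π ∈ O := by
    have h2 := O.mul_mem _ _ (hBO s) hr
    rw [e] at h2
    convert h2 using 1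
    field_simp
  obtain ⟨c, rfl⟩ := hQEP b this
  refine ⟨IsLocalization.mk' R c s, ?_⟩
  rw [← IsLocalization.mul_mk'_eq_mk'_of_mul]

theorem loc_prime (O : ValuationSubring F) (π : B) (hπ0 : π ≠ 0)
    (hQEP : ∀ b : B, algebraMap B F b / algebraMap B F π ∈ O → π ∣ b)
    (hBO : ∀ b : B, algebraMap B F b ∈ O)
    (hOmax : ∀ y ∈ O, y⁻¹ ∉ O → y / algebraMap B F π ∈ O)
    (𝔫 : Ideal B) [𝔫.IsPrime] (hπ𝔫 : π ∈ 𝔫)
    (R : Type*) [CommRing R] [Algebra B R] [IsLocalization.AtPrime R 𝔫] [Algebra R F]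
    [IsScalarTower B R F] [IsFractionRing R F] : Prime (algebraMap B R π) := by
  have hinjBR : Function.Injective (algebraMap B R) :=
    IsLocalization.injective R 𝔫.primeCompl_le_nonZeroDivisors
  have hinjRF : Function.Injective (algebraMap R F) := IsFractionRing.injective R F
  have hπF : algebraMap B F π ≠ 0 := by simpa using hπ0
  refine ⟨(map_ne_zero_iff _ hinjBR).2 hπ0, ?_, ?_⟩
  · rw [IsLocalization.AtPrime.isUnit_to_map_iff R 𝔫]
    exact fun h => h hπ𝔫
  · intro a b hab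
    obtain ⟨c, hc⟩ := hab
    have haO := loc_mem_O O π hQEP hBO hOmax 𝔫 hπ𝔫 R a
    have hcO := loc_mem_O O π hQEP hBO hOmax 𝔫 hπ𝔫 R c
    by_cases ha0 : a = 0
    · left; rw [ha0]; exact dvd_zero _
    have ha0F : algebraMap R F a ≠ 0 := (map_ne_zero_iff _ hinjRF).2 ha0
    by_cases ha : (algebraMap R F a)⁻¹ ∈ O
    · right
      apply loc_qep O π hQEP hBO 𝔫 R
      have : algebraMap R F b / algebraMap B F π = (algebraMap R F a)⁻¹ * algebraMap R F c := by
        have h1 : algebraMap R F (a * b) = algebraMap R F (algebraMap B R π * c) := by rw [hc]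
        rw [map_mul, map_mul, ← IsScalarTower.algebraMap_apply] at h1
        field_simp
        linear_combination h1
      rw [this]
      exact O.mul_mem _ _ ha hcO
    · left
      exact loc_qep O π hQEP hBO 𝔫 R a (hOmax _ haO ha)

theorem loc_maximalIdeal_eq (π : B) (𝔫 : Ideal B) [𝔫.IsPrime] (hπ𝔫 : π ∈ 𝔫)
    (R : Type*) [CommRing R] [Algebra B R] [IsLocalization.AtPrime R 𝔫] [IsLocalRing R]
    {t : B} (ht : t ∈ 𝔫) (hreg : ∀ y ∈ 𝔫, ∃ s, s ∉ 𝔫 ∧ s * y ∈ Ideal.span {π, t}) :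
    maximalIdeal R = Ideal.span {algebraMap B R π, algebraMap B R t} := by
  apply le_antisymm
  · intro r hr
    obtain ⟨y, s, rfl⟩ := IsLocalization.exists_mk'_eq 𝔫.primeCompl r
    rw [IsLocalization.AtPrime.mk'_mem_maximal_iff R 𝔫] at hr
    obtain ⟨s', hs', hmem⟩ := hreg y hr
    have hu : IsUnit (algebraMap B R (s' * s)) := by
      rw [IsLocalization.AtPrime.isUnit_to_map_iff R 𝔫]
      exact 𝔫.primeCompl.mul_mem hs' s.2
    rw [← Ideal.unit_mul_mem_iff_mem _ hu]
    have e : algebraMap B R (s' * s) * IsLocalization.mk' R y s = algebraMap B R (s' * y) := by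
      rw [map_mul, mul_assoc, IsLocalization.mk'_spec', map_mul]
    rw [e]
    have := Ideal.mem_map_of_mem (algebraMap B R) hmem
    rwa [Ideal.map_span, Set.image_pair] at this
  · rw [Ideal.span_le]
    rintro x (rfl | rfl)
    · exact (IsLocalization.AtPrime.to_map_mem_maximal_iff R 𝔫 π).2 hπ𝔫
    · exact (IsLocalization.AtPrime.to_map_mem_maximal_iff R 𝔫 t).2 ht

/-- `B_𝔫 / π` is a principal ideal ring, from the intrinsic regularity. -/
theorem loc_quotient_pir [IsNoetherianRing B] (π : B) (𝔫 : Ideal B) [𝔫.IsPrime] (hπ𝔫 : π ∈ 𝔫)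
    (R : Type*) [CommRing R] [Algebra B R] [IsLocalization.AtPrime R 𝔫]
    (hprime : Prime (algebraMap B R π)) (hreg : RegAt π 𝔫) :
    IsDomain (R ⧸ Ideal.span {algebraMap B R π}) ∧
      IsPrincipalIdealRing (R ⧸ Ideal.span {algebraMap B R π}) := by
  have : IsLocalRing R := IsLocalization.AtPrime.isLocalRing R 𝔫
  have : IsNoetherianRing R := IsLocalization.isNoetherianRing 𝔫.primeCompl R inferInstance
  have hIprime : (Ideal.span {algebraMap B R π}).IsPrime :=
    (Ideal.span_singleton_prime hprime.ne_zero).2 hprime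
  have hdom : IsDomain (R ⧸ Ideal.span {algebraMap B R π}) :=
    (Ideal.Quotient.isDomain_iff_prime _).2 hIprime
  refine ⟨hdom, ?_⟩
  obtain ⟨t, ht, hreg⟩ := hreg
  have hmax := loc_maximalIdeal_eq π 𝔫 hπ𝔫 R ht hreg
  set mk := Ideal.Quotient.mk (Ideal.span {algebraMap B R π}) with hmk
  have hsurj : Function.Surjective mk := Ideal.Quotient.mk_surjective
  have : IsLocalRing (R ⧸ Ideal.span {algebraMap B R π}) :=
    IsLocalRing.of_surjective' mk hsurj
  have hmax' : maximalIdeal (R ⧸ Ideal.span {algebraMap B R π})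
      = Ideal.span {mk (algebraMap B R t)} := by
    have h1 : maximalIdeal (R ⧸ Ideal.span {algebraMap B R π}) = (maximalIdeal R).map mk := by
      have hl : IsLocalHom mk := IsLocalHom.of_surjective mk hsurj
      have hc := (IsLocalRing.local_hom_TFAE mk).out 0 4
      have := hc.1 hl
      rw [← this, Ideal.map_comap_of_surjective mk hsurj]
    rw [h1, hmax, Ideal.map_span, Set.image_pair]
    have h0 : mk (algebraMap B R π) = 0 :=
      Ideal.Quotient.eq_zero_iff_mem.2 (Ideal.mem_span_singleton_self _)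
    rw [h0]
    apply le_antisymm
    · rw [Ideal.span_le]
      rintro x (rfl | rfl)
      · exact Ideal.zero_mem _
      · exact Ideal.mem_span_singleton_self _
    · exact Ideal.span_mono (by simp)
  have hprin : (maximalIdeal (R ⧸ Ideal.span {algebraMap B R π})).IsPrincipal :=
    ⟨⟨_, hmax'⟩⟩
  exact ((tfae_of_isNoetherianRing_of_isLocalRing_of_isDomain
    (R ⧸ Ideal.span {algebraMap B R π})).out 4 0).1 hprin

/-- **Local generator**, intrinsic form. -/
theorem exists_local_root' [IsNoetherianRing B] (O : ValuationSubring F) (π : B) (hπ0 : π ≠ 0)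
    (hQEP : ∀ b : B, algebraMap B F b / algebraMap B F π ∈ O → π ∣ b)
    (hBO : ∀ b : B, algebraMap B F b ∈ O)
    (hOmax : ∀ y ∈ O, y⁻¹ ∉ O → y / algebraMap B F π ∈ O)
    (m : ℕ) (h : F) (hh0 : h ≠ 0) (hhO : h ∈ O) (hhO' : h⁻¹ ∈ O)
    (hdiv : DivHyp B π m h)
    (𝔫 : Ideal B) [𝔫.IsPrime] (hπ𝔫 : π ∈ 𝔫) (hreg : RegAt π 𝔫) :
    ∃ (g : F) (a b : B), g ≠ 0 ∧ a ∉ 𝔫 ∧ b ∉ 𝔫 ∧
      g ^ m * h * algebraMap B F b = algebraMap B F a := by
  let R := Localization.subalgebra.ofField F 𝔫.primeCompl 𝔫.primeCompl_le_nonZeroDivisors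
  have : IsLocalization.AtPrime R 𝔫 :=
    Localization.subalgebra.isLocalization_ofField F 𝔫.primeCompl 𝔫.primeCompl_le_nonZeroDivisors
  have hprime : Prime (algebraMap B R π) := loc_prime O π hπ0 hQEP hBO hOmax 𝔫 hπ𝔫 R
  obtain ⟨h1, h2⟩ := loc_quotient_pir π 𝔫 hπ𝔫 R hprime hreg
  exact exists_local_root O π hπ0 hQEP hBO hOmax m h hh0 hhO hhO' hdiv 𝔫 hπ𝔫 R

end Fermat.Agent.S18.Abs
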