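import Mathlib
import Fermat.Agent.S18.Abs.LocalReg

/-!
# The module `I = {y : y ^ m * h ∈ B}` and its reduction (KL-A, INJ-abs step (b))
-/

namespace Fermat.Agent.S18.Abs

variable {F : Type*} [Field F]

theorem ValuationSubring_mem_of_pow_mem (O : ValuationSubring F) {m : ℕ} (hm : 0 < m) {y : F}
    (hy : y ^ m ∈ O) : y ∈ O := by
  by_contra hcon
  have hinv : y⁻¹ ∈ O := (O.mem_or_inv_mem y).resolve_left hcon
  have hy0 : y ≠ 0 := fun h0 => hcon (h0 ▸ O.zero_mem)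
  apply hcon
  have : y = y ^ m * (y⁻¹) ^ (m - 1) := by
    obtain ⟨k, rfl⟩ : ∃ k, m = k + 1 := ⟨m - 1, by omega⟩
    simp only [Nat.add_sub_cancel, inv_pow]
    field_simp
    ring
  rw [this]
  exact O.mul_mem _ _ hy (O.pow_mem hinv _)

/-- `I = {y : y ^ m * h ∈ B}` for an `m`-root closed subring `B`. -/
def rootGroup (B : Subring F) (m : ℕ) (hm : 0 < m) (hroot : ∀ y : F, y ^ m ∈ B → y ∈ B) (h : F) :
    AddSubgroup F where
  carrier := {y | y ^ m * h ∈ B}
  zero_mem' := by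
    show (0 : F) ^ m * h ∈ B
    rw [zero_pow hm.ne', zero_mul]; exact B.zero_mem
  add_mem' := by
    intro y z hy hz
    show (y + z) ^ m * h ∈ B
    rw [add_pow, Finset.sum_mul]
    refine B.sum_mem fun j hj => ?_
    have hj' : j ≤ m := Nat.lt_succ_iff.1 (Finset.mem_range.1 hj)
    have ht : y ^ j * z ^ (m - j) * h ∈ B := by
      apply hroot
      have : (y ^ j * z ^ (m - j) * h) ^ m = (y ^ m * h) ^ j * (z ^ m * h) ^ (m - j) := by
        have e : h ^ m = h ^ j * h ^ (m - j) := by rw [← pow_add]; congr 1; omega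
        rw [mul_pow, mul_pow, mul_pow, mul_pow, e, ← pow_mul, ← pow_mul, ← pow_mul, ← pow_mul,
          mul_comm j m, mul_comm (m - j) m]
        ring
      rw [this]
      exact B.mul_mem (B.pow_mem hy _) (B.pow_mem hz _)
    have : y ^ j * z ^ (m - j) * (m.choose j : F) * h
        = (m.choose j : F) * (y ^ j * z ^ (m - j) * h) := by ring
    rw [this]
    exact B.mul_mem (natCast_mem B _) ht
  neg_mem' := by
    intro y hy
    show (-y) ^ m * h ∈ B
    rcases Nat.even_or_odd m with e | e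
    · rw [e.neg_pow]; exact hy
    · rw [e.neg_pow, neg_mul]; exact B.neg_mem hy

theorem mem_rootGroup {B : Subring F} {m : ℕ} {hm : 0 < m}
    {hroot : ∀ y : F, y ^ m ∈ B → y ∈ B} {h y : F} :
    y ∈ rootGroup B m hm hroot h ↔ y ^ m * h ∈ B := Iff.rfl

theorem mul_mem_rootGroup {B : Subring F} {m : ℕ} {hm : 0 < m}
    {hroot : ∀ y : F, y ^ m ∈ B → y ∈ B} {h b y : F} (hb : b ∈ B)
    (hy : y ∈ rootGroup B m hm hroot h) : b * y ∈ rootGroup B m hm hroot h := by
  rw [mem_rootGroup] at hy ⊢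
  rw [mul_pow, mul_assoc]
  exact B.mul_mem (B.pow_mem hb _) hy

/-- hypotheses on the valuation subring `O` and the element `π`: the maximal ideal of `O` is `(π)`. -/
structure GaussHyp (O : ValuationSubring F) (π : F) : Prop where
  ne_zero : π ≠ 0
  mem : π ∈ O
  inv_not_mem : π⁻¹ ∉ O
  max : ∀ y ∈ O, y⁻¹ ∉ O → y / π ∈ O

/-- basic hypotheses on a chart `B ⊆ O`. -/
structure ChartHyp (O : ValuationSubring F) (π : F) (m : ℕ) (B : Subring F) : Prop where
  le_O : ∀ b ∈ B, b ∈ O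
  pi_mem : π ∈ B
  qep : ∀ z ∈ O, π * z ∈ B → z ∈ B
  root : ∀ y : F, y ^ m ∈ B → y ∈ B

theorem GaussHyp.unit_of_sub_one {O : ValuationSubring F} {π : F} (hO : GaussHyp O π) {h : F}
    (hh : (h - 1) / π ∈ O) : h ∈ O ∧ h⁻¹ ∈ O ∧ h ≠ 0 := by
  have hπ := hO.ne_zero
  have h1 : h = 1 + π * ((h - 1) / π) := by field_simp; ring
  have hhO : h ∈ O := by
    rw [h1]; exact O.add_mem _ _ O.one_mem (O.mul_mem _ _ hO.mem hh)
  have hinv : h⁻¹ ∈ O := by
    by_contra hcon
    have h2 := hO.max h hhO hcon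
    apply hO.inv_not_mem
    have : π⁻¹ = h / π - (h - 1) / π := by field_simp; ring
    rw [this]
    exact O.sub_mem h2 hh
  refine ⟨hhO, hinv, ?_⟩
  rintro rfl
  apply hO.inv_not_mem
  have : π⁻¹ = -(((0 : F) - 1) / π) := by field_simp; ring
  rw [this]
  exact O.neg_mem _ hh

theorem rootGroup_le_O {O : ValuationSubring F} {π : F} {m : ℕ} {B : Subring F}
    (hB : ChartHyp O π m B) (hm : 0 < m) {h : F} (hhinv : h⁻¹ ∈ O) (hh0 : h ≠ 0) {y : F}
    (hy : y ∈ rootGroup B m hm hB.root h) : y ∈ O := by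
  apply ValuationSubring_mem_of_pow_mem O hm
  have : y ^ m = (y ^ m * h) * h⁻¹ := by field_simp
  rw [this]
  exact O.mul_mem _ _ (hB.le_O _ hy) hhinv

theorem ChartHyp.qep_pow {O : ValuationSubring F} {π : F} {m : ℕ} {B : Subring F}
    (hB : ChartHyp O π m B) (hπO : π ∈ O) : ∀ (k : ℕ) (z : F), z ∈ O → π ^ k * z ∈ B → z ∈ B
  | 0, z, _, h => by simpa using h
  | k + 1, z, hz, h => by
      apply hB.qep_pow hπO k z hz
      apply hB.qep _ (O.mul_mem _ _ (O.pow_mem hπO k) hz)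
      have : π * (π ^ k * z) = π ^ (k + 1) * z := by ring
      rw [this]; exact h

/-- `I` is `π`-saturated in `O`. -/
theorem rootGroup_sat {O : ValuationSubring F} {π : F} {m : ℕ} {B : Subring F}
    (hB : ChartHyp O π m B) (hπO : π ∈ O) (hm : 0 < m) {h : F} (hhO : h ∈ O) {z : F} (hz : z ∈ O)
    (hy : π * z ∈ rootGroup B m hm hB.root h) : z ∈ rootGroup B m hm hB.root h := by
  rw [mem_rootGroup] at hy ⊢
  apply hB.qep_pow hπO m _ (O.mul_mem _ _ (O.pow_mem hz _) hhO)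
  rw [← mul_assoc, ← mul_pow]; exact hy

/-- **Surjectivity of the reduction `I → B / π`.** -/
theorem rootGroup_surj {O : ValuationSubring F} {π : F} (hO : GaussHyp O π) {m : ℕ} (hm : 0 < m)
    {B : Subring F} (hB : ChartHyp O π m B) [IsFractionRing B F] [IsNoetherianRing B]
    {h : F} (hh : (h - 1) / π ∈ O)
    (hdiv : DivHyp B (⟨π, hB.pi_mem⟩ : B) m h)
    (hreg : ∀ 𝔫 : Ideal B, 𝔫.IsMaximal → (⟨π, hB.pi_mem⟩ : B) ∈ 𝔫 → RegAt (⟨π, hB.pi_mem⟩ : B) 𝔫)
    (hnorm : ∀ c ∈ O, ∀ b ∈ B, (c ^ m - b) / π ∈ O → ∃ b' ∈ B, (c - b') / π ∈ O) :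
    ∀ b ∈ B, ∃ c ∈ rootGroup B m hm hB.root h, (c - b) / π ∈ O := by
  classical
  obtain ⟨hhO, hhinv, hh0⟩ := hO.unit_of_sub_one hh
  have hπ := hO.ne_zero
  set I := rootGroup B m hm hB.root h with hI
  -- the ideal of residues hit by `I`
  let J : Ideal B :=
    { carrier := {b | ∃ c ∈ I, (c - (b : F)) / π ∈ O}
      zero_mem' := ⟨0, I.zero_mem, by simp [O.zero_mem]⟩
      add_mem' := by
        rintro a b ⟨c, hc, h1⟩ ⟨c', hc', h2⟩
        refine ⟨c + c', I.add_mem hc hc', ?_⟩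
        have : (c + c' - ((a + b : B) : F)) / π = (c - a) / π + (c' - b) / π := by
          push_cast; ring
        rw [this]; exact O.add_mem _ _ h1 h2
      smul_mem' := by
        rintro r b ⟨c, hc, h1⟩
        refine ⟨r * c, mul_mem_rootGroup r.2 hc, ?_⟩
        have : ((r : F) * c - ((r • b : B) : F)) / π = r * ((c - b) / π) := by
          simp only [smul_eq_mul, Subring.coe_mul]; ring
        rw [this]; exact O.mul_mem _ _ (hB.le_O _ r.2) h1 }
  have hJtop : J = ⊤ := by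
    by_contra hne
    obtain ⟨𝔫, h𝔫max, hJ𝔫⟩ := Ideal.exists_le_maximal J hne
    have hπJ : (⟨π, hB.pi_mem⟩ : B) ∈ J := by
      refine ⟨0, I.zero_mem, ?_⟩
      have : ((0 : F) - ((⟨π, hB.pi_mem⟩ : B) : F)) / π = -1 := by
        simp only [zero_sub]; field_simp
      rw [this]; exact O.neg_mem _ O.one_mem
    have hπ𝔫 := hJ𝔫 hπJ
    have : 𝔫.IsPrime := h𝔫max.isPrime
    obtain ⟨g, a, b, hg, ha, hb, e⟩ := exists_local_root' O (⟨π, hB.pi_mem⟩ : B)
      (fun h0 => hπ (congrArg Subtype.val h0))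
      (by
        intro b hb
        change (b : F) / π ∈ O at hb
        have hz : π * ((b : F) / π) ∈ B := by
          have : π * ((b : F) / π) = b := by field_simp
          rw [this]; exact b.2
        refine ⟨⟨_, hB.qep _ hb hz⟩, Subtype.ext ?_⟩
        show (b : F) = π * ((b : F) / π)
        field_simp)
      (fun b => hB.le_O _ b.2) hO.max m h hh0 hhO hhinv hdiv 𝔫 hπ𝔫 (hreg 𝔫 h𝔫max hπ𝔫)
    change g ^ m * h * (b : F) = (a : F) at e
    -- `c = g b`
    obtain ⟨k, rfl⟩ : ∃ k, m = k + 1 := ⟨m - 1, by omega⟩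
    have hcm : (g * b) ^ (k + 1) * h = a * (b : F) ^ k := by
      rw [← e]; ring
    have hcI : g * b ∈ I := by
      rw [hI, mem_rootGroup, hcm]
      exact B.mul_mem a.2 (B.pow_mem b.2 _)
    have hcO : g * b ∈ O := rootGroup_le_O hB hm hhinv hh0 hcI
    obtain ⟨b', hb'B, hb'⟩ := hnorm (g * b) hcO (a * (b : F) ^ k)
      (B.mul_mem a.2 (B.pow_mem b.2 _)) (by
        rw [← hcm]
        have : ((g * b) ^ (k + 1) - (g * b) ^ (k + 1) * h) / π
            = -((g * b) ^ (k + 1) * ((h - 1) / π)) := by ring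
        rw [this]
        exact O.neg_mem _ (O.mul_mem _ _ (O.pow_mem hcO _) hh))
    have hb'𝔫 : (⟨b', hb'B⟩ : B) ∈ 𝔫 := hJ𝔫 ⟨g * b, hcI, hb'⟩
    -- `b' ^ m - a b ^ k ∈ π B`
    have hb'O : b' ∈ O := hB.le_O _ hb'B
    have hdiff : (b' ^ (k + 1) - a * (b : F) ^ k) / π ∈ O := by
      have h1 : ((g * b) ^ (k + 1) - a * (b : F) ^ k) / π ∈ O := by
        rw [← hcm]
        have : ((g * b) ^ (k + 1) - (g * b) ^ (k + 1) * h) / π
            = -((g * b) ^ (k + 1) * ((h - 1) / π)) := by ring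
        rw [this]
        exact O.neg_mem _ (O.mul_mem _ _ (O.pow_mem hcO _) hh)
      have h2 : ((g * b) ^ (k + 1) - b' ^ (k + 1)) / π ∈ O := by
        have := (Commute.all (g * (b : F)) b').geom_sum₂_mul (k + 1)
        rw [← this, mul_div_assoc]
        refine O.mul_mem _ _ (O.toSubring.sum_mem fun i _ => ?_) hb'
        exact O.mul_mem _ _ (O.pow_mem hcO _) (O.pow_mem hb'O _)
      have : (b' ^ (k + 1) - a * (b : F) ^ k) / π
          = ((g * b) ^ (k + 1) - a * (b : F) ^ k) / π - ((g * b) ^ (k + 1) - b' ^ (k + 1)) / π := by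
        ring
      rw [this]; exact O.sub_mem h1 h2
    have hzB : (b' ^ (k + 1) - a * (b : F) ^ k) / π ∈ B := by
      apply hB.qep _ hdiff
      have : π * ((b' ^ (k + 1) - a * (b : F) ^ k) / π) = b' ^ (k + 1) - a * (b : F) ^ k := by
        field_simp
      rw [this]
      exact B.sub_mem (B.pow_mem hb'B _) (B.mul_mem a.2 (B.pow_mem b.2 _))
    have hmem : a * b ^ k ∈ 𝔫 := by
      have : a * b ^ k = (⟨b', hb'B⟩ : B) ^ (k + 1)
          - (⟨π, hB.pi_mem⟩ : B) * ⟨_, hzB⟩ := by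
        apply Subtype.ext
        show (a : F) * (b : F) ^ k
          = b' ^ (k + 1) - π * ((b' ^ (k + 1) - a * (b : F) ^ k) / π)
        field_simp
        ring
      rw [this]
      exact 𝔫.sub_mem (𝔫.pow_mem_of_mem hb'𝔫 _ (Nat.succ_pos k)) (𝔫.mul_mem_right _ hπ𝔫)
    rcases (h𝔫max.isPrime).mem_or_mem hmem with h1 | h1
    · exact ha h1
    · exact hb ((h𝔫max.isPrime).mem_of_pow_mem _ h1)
  intro b hb
  have : (⟨b, hb⟩ : B) ∈ J := hJtop ▸ Submodule.mem_top
  exact this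

end Fermat.Agent.S18.Abs
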