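import Mathlib
import Fermat.Agent.S18.Abs.Newton
import Fermat.Agent.S18.Abs.Surj

/-!
# INJ-abs: assembly (KL-A)

Two charts `B1`, `B2` inside `B12`, all inside the valuation subring `O` whose maximal ideal is
`(π)`.  If `h ≡ 1 mod π` has order divisible by `m` at all horizontal discrete valuations, then
`s ^ m * h ∈ B1 ∩ B2` for some `s ≠ 0`.
-/

namespace Fermat.Agent.S18.Abs

variable {F : Type*} [Field F]

theorem dvd_iff_div_mem (O : ValuationSubring F) {π : F} (hπ0 : π ≠ 0) (hπO : π ∈ O) (z : O)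
    (k : ℕ) : (⟨π, hπO⟩ : O) ^ k ∣ z ↔ (z : F) / π ^ k ∈ O := by
  constructor
  · rintro ⟨c, rfl⟩
    have : (((⟨π, hπO⟩ : O) ^ k * c : O) : F) / π ^ k = c := by
      have : π ^ k ≠ 0 := pow_ne_zero _ hπ0
      simp only [MulMemClass.coe_mul, SubmonoidClass.coe_pow]
      field_simp
    rw [this]; exact c.2
  · intro h
    refine ⟨⟨_, h⟩, Subtype.ext ?_⟩
    have : π ^ k ≠ 0 := pow_ne_zero _ hπ0
    simp only [MulMemClass.coe_mul, SubmonoidClass.coe_pow]
    field_simp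

/-- all hypotheses on a "good" chart. -/
structure GoodChart (O : ValuationSubring F) (π : F) (m : ℕ) (h : F) (B : Subring F) : Prop
    extends ChartHyp O π m B where
  frac : IsFractionRing B F
  noeth : IsNoetherianRing B
  minv : (m : F)⁻¹ ∈ B
  div : DivHyp B (⟨π, pi_mem⟩ : B) m h
  reg : ∀ 𝔫 : Ideal B, 𝔫.IsMaximal → (⟨π, pi_mem⟩ : B) ∈ 𝔫 → RegAt (⟨π, pi_mem⟩ : B) 𝔫
  norm : ∀ c ∈ O, ∀ b ∈ B, (c ^ m - b) / π ∈ O → ∃ b' ∈ B, (c - b') / π ∈ O

/-- Newton iteration on a good chart, stated in `F`. -/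
theorem GoodChart.newton {O : ValuationSubring F} {π : F} (hO : GaussHyp O π) {m : ℕ} (hm : 0 < m)
    (hmF : (m : F) ≠ 0) {h : F} (hh : (h - 1) / π ∈ O) {B : Subring F}
    (hB : GoodChart O π m h B) (k : ℕ) :
    ∃ a ∈ rootGroup B m hm hB.root h, a ∈ O ∧ (a - 1) / π ∈ O ∧
      (a ^ m * h - 1) / π ^ (k + 1) ∈ O := by
  obtain ⟨hhO, hhinv, hh0⟩ := hO.unit_of_sub_one hh
  have hπ := hO.ne_zero
  have := hB.frac
  have := hB.noeth
  have hsurj := rootGroup_surj hO hm hB.toChartHyp hh hB.div hB.reg hB.norm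
  set I := rootGroup B m hm hB.root h with hI
  obtain ⟨a, haI, ha1, hak⟩ := Fermat.Agent.S18.Abs.newton (O := O) (⟨π, hO.mem⟩ : O) ⟨h, hhO⟩ m
    (B.comap O.subtype) (I.comap O.subtype.toAddMonoidHom)
    (by
      intro z hz
      exact hB.qep _ z.2 hz)
    (by
      intro c hc
      exact mul_mem_rootGroup (hm := hm) (hroot := hB.root) hB.pi_mem hc)
    (by
      intro a ha
      exact ha)
    (by
      intro b hb
      obtain ⟨c, hc, hcb⟩ := hsurj b hb
      refine ⟨⟨c, rootGroup_le_O hB.toChartHyp hm hhinv hh0 hc⟩, hc, ?_⟩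
      have := (dvd_iff_div_mem O hπ hO.mem
        (⟨c, rootGroup_le_O hB.toChartHyp hm hhinv hh0 hc⟩ - b) 1).2 (by simpa using hcb)
      simpa using this)
    ⟨(m : F)⁻¹, hB.le_O _ hB.minv⟩ hB.minv
    (by
      apply Subtype.ext
      simp only [MulMemClass.coe_mul, OneMemClass.coe_one]
      have : (((m : ℕ) : O) : F) = (m : F) := by simp
      rw [this]
      field_simp)
    (by
      have := (dvd_iff_div_mem O hπ hO.mem ((⟨h, hhO⟩ : O) - 1) 1).2 (by simpa using hh)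
      simpa using this) k
  refine ⟨a, haI, a.2, ?_, ?_⟩
  · have := (dvd_iff_div_mem O hπ hO.mem (a - 1) 1).1 (by simpa using ha1)
    simpa using this
  · have := (dvd_iff_div_mem O hπ hO.mem _ (k + 1)).1 hak
    simpa using this

/-- **INJ-abs, core form.** -/
theorem inj_abs_core {O : ValuationSubring F} {π : F} (hO : GaussHyp O π) {m : ℕ} (hm : 0 < m)
    (hmF : (m : F) ≠ 0) {h : F} (hh : (h - 1) / π ∈ O) {B1 B2 B12 : Subring F}
    (hB1 : GoodChart O π m h B1) (hB2 : GoodChart O π m h B2) (hB12 : ChartHyp O π m B12)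
    (h1 : B1 ≤ B12) (h2 : B2 ≤ B12)
    (htors : ∃ k0 : ℕ, ∀ y ∈ rootGroup B12 m hm hB12.root h, ∀ k : ℕ,
      π ^ k * y ∈ rootGroup B1 m hm hB1.root h ⊔ rootGroup B2 m hm hB2.root h →
      π ^ k0 * y ∈ rootGroup B1 m hm hB1.root h ⊔ rootGroup B2 m hm hB2.root h) :
    ∃ s : F, s ≠ 0 ∧ s ^ m * h ∈ B1 ∧ s ^ m * h ∈ B2 := by
  obtain ⟨hhO, hhinv, hh0⟩ := hO.unit_of_sub_one hh
  have hπ := hO.ne_zero
  obtain ⟨k0, htors⟩ := htors
  obtain ⟨a, haI, haO, ha1, hak⟩ := hB1.newton hO hm hmF hh k0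
  obtain ⟨b, hbI, hbO, hb1, hbk⟩ := hB2.newton hO hm hmF hh k0
  -- uniqueness
  have hab : (a - b) / π ^ (k0 + 1) ∈ O := by
    have := approx_root_unique (O := O) (⟨π, hO.mem⟩ : O) ⟨h, hhO⟩ m
      (by
        intro x hx
        have hx' := (dvd_iff_div_mem O hπ hO.mem (x - 1) 1).1 (by simpa using hx)
        obtain ⟨-, hxinv, hx0⟩ := hO.unit_of_sub_one (h := (x : F)) (by simpa using hx')
        exact ⟨⟨x, ⟨_, hxinv⟩, Subtype.ext (mul_inv_cancel₀ hx0),
          Subtype.ext (inv_mul_cancel₀ hx0)⟩, rfl⟩)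
      ⟨(m : F)⁻¹, hB1.le_O _ hB1.minv⟩
      (by
        apply Subtype.ext
        simp only [MulMemClass.coe_mul, OneMemClass.coe_one]
        have : (((m : ℕ) : O) : F) = (m : F) := by simp
        rw [this]
        field_simp)
      (by
        have := (dvd_iff_div_mem O hπ hO.mem ((⟨h, hhO⟩ : O) - 1) 1).2 (by simpa using hh)
        simpa using this)
      (a := ⟨a, haO⟩) (b := ⟨b, hbO⟩)
      (by
        have := (dvd_iff_div_mem O hπ hO.mem ((⟨a, haO⟩ : O) - 1) 1).2 (by simpa using ha1)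
        simpa using this)
      (by
        have := (dvd_iff_div_mem O hπ hO.mem ((⟨b, hbO⟩ : O) - 1) 1).2 (by simpa using hb1)
        simpa using this)
      (k := k0 + 1)
      ((dvd_iff_div_mem O hπ hO.mem _ (k0 + 1)).2 (by simpa using hak))
      ((dvd_iff_div_mem O hπ hO.mem _ (k0 + 1)).2 (by simpa using hbk))
    have := (dvd_iff_div_mem O hπ hO.mem _ (k0 + 1)).1 this
    simpa using this
  set I1 := rootGroup B1 m hm hB1.root h with hI1
  set I2 := rootGroup B2 m hm hB2.root h with hI2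
  set I12 := rootGroup B12 m hm hB12.root h with hI12
  have hI1le : I1 ≤ I12 := fun y hy => h1 hy
  have hI2le : I2 ≤ I12 := fun y hy => h2 hy
  set y := (a - b) / π ^ (k0 + 1) with hy
  have hπk : π ^ (k0 + 1) ≠ 0 := pow_ne_zero _ hπ
  have hyeq : π ^ (k0 + 1) * y = a - b := by rw [hy]; field_simp
  -- saturation
  have hsat : ∀ (k : ℕ) (z : F), z ∈ O → π ^ k * z ∈ I12 → z ∈ I12 := by
    intro k
    induction k with
    | zero => intro z _ hz; simpa using hz
    | succ k ih =>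
      intro z hz hz'
      apply ih z hz
      apply rootGroup_sat hB12 hO.mem hm hhO (O.mul_mem _ _ (O.pow_mem hO.mem _) hz)
      have : π * (π ^ k * z) = π ^ (k + 1) * z := by ring
      rw [this]; exact hz'
  have hy12 : y ∈ I12 := by
    apply hsat (k0 + 1) y hab
    rw [hyeq]; exact I12.sub_mem (hI1le haI) (hI2le hbI)
  have hmem : π ^ (k0 + 1) * y ∈ I1 ⊔ I2 := by
    rw [hyeq, sub_eq_add_neg]
    exact AddSubgroup.add_mem_sup haI (I2.neg_mem hbI)
  obtain ⟨y1, hy1, y2, hy2, hsum⟩ := AddSubgroup.mem_sup.1 (htors y hy12 (k0 + 1) hmem)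
  have hy1O : y1 ∈ O := rootGroup_le_O hB1.toChartHyp hm hhinv hh0 hy1
  have hs1 : a - π * y1 ∈ I1 := I1.sub_mem haI (mul_mem_rootGroup hB1.pi_mem hy1)
  have hs2 : a - π * y1 ∈ I2 := by
    have : a - π * y1 = b + π * y2 := by
      have e : π ^ (k0 + 1) * y = π * (π ^ k0 * y) := by ring
      rw [e, ← hsum] at hyeq
      linear_combination -hyeq
    rw [this]
    exact I2.add_mem hbI (mul_mem_rootGroup hB2.pi_mem hy2)
  refine ⟨a - π * y1, ?_, hs1, hs2⟩
  have : (a - π * y1 - 1) / π ∈ O := by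
    have : (a - π * y1 - 1) / π = (a - 1) / π - y1 := by field_simp; ring
    rw [this]; exact O.sub_mem ha1 hy1O
  exact (hO.unit_of_sub_one this).2.2

end Fermat.Agent.S18.Abs
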