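/-
KL-A, INJ-B2: `B / ϖ` Dedekind gives `RegAt` at every maximal ideal containing `ϖ`, and `m`-th roots
modulo `ϖ` stay in `B`.
-/
import Mathlib
import Fermat.Agent.S18.Defs
import Fermat.Agent.S18.Abs.LocalReg

set_option autoImplicit false

noncomputable section

namespace Fermat.Agent.S18

open Fermat.Agent.S18.Abs

namespace Bridge2

/-- abstract form of `IsChart.regAt`. -/
theorem regAt_of_isDedekindDomain {B : Type*} [CommRing B] (π : B)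
    [IsDedekindDomain (B ⧸ Ideal.span {π})] (𝔫 : Ideal B) (h𝔫 : 𝔫.IsMaximal) (hπ𝔫 : π ∈ 𝔫) :
    RegAt π 𝔫 := by
  set mk := Ideal.Quotient.mk (Ideal.span {π}) with hmk
  have hsurj : Function.Surjective mk := Ideal.Quotient.mk_surjective
  have hle : Ideal.span {π} ≤ 𝔫 := (Ideal.span_singleton_le_iff_mem 𝔫).2 hπ𝔫
  have hcomap : (𝔫.map mk).comap mk = 𝔫 := by
    rw [Ideal.comap_map_of_surjective mk hsurj, sup_eq_left]
    have : Ideal.comap mk ⊥ = Ideal.span {π} := by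
      rw [← RingHom.ker_eq_comap_bot, hmk, Ideal.mk_ker]
    rw [this]
    exact hle
  have hmem : ∀ y : B, mk y ∈ 𝔫.map mk ↔ y ∈ 𝔫 := by
    intro y
    rw [← Ideal.mem_comap, hcomap]
  have hne_top : 𝔫.map mk ≠ ⊤ := by
    intro h
    apply h𝔫.ne_top
    rw [← hcomap, h, Ideal.comap_top]
  by_cases hbot : 𝔫.map mk = ⊥
  · refine ⟨π, hπ𝔫, fun y hy => ⟨1, fun h1 => h𝔫.ne_top ((Ideal.eq_top_iff_one 𝔫).2 h1), ?_⟩⟩
    have h0 : mk y = 0 := by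
      have := (hmem y).2 hy
      rwa [hbot, Ideal.mem_bot] at this
    rw [one_mul]
    have h1 : y ∈ Ideal.span {π} := Ideal.Quotient.eq_zero_iff_mem.1 h0
    exact Ideal.span_mono (by simp) h1
  · obtain ⟨tbar, ht1, ht2⟩ := Ideal.exists_mem_pow_notMem_pow_succ (𝔫.map mk) hbot hne_top 1
    rw [pow_one] at ht1
    obtain ⟨t, rfl⟩ := hsurj tbar
    have hdvd : 𝔫.map mk ∣ Ideal.span {mk t} :=
      Ideal.dvd_iff_le.2 ((Ideal.span_singleton_le_iff_mem _).2 ht1)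
    obtain ⟨𝔠, h𝔠⟩ := hdvd
    have hnle : ¬ 𝔠 ≤ 𝔫.map mk := by
      intro hc
      apply ht2
      have : Ideal.span {mk t} ≤ (𝔫.map mk) ^ (1 + 1) := by
        rw [h𝔠, pow_succ, pow_one]
        exact Ideal.mul_mono_right hc
      exact this (Ideal.mem_span_singleton_self _)
    obtain ⟨sbar, hs1, hs2⟩ := SetLike.not_le_iff_exists.1 hnle
    obtain ⟨s, rfl⟩ := hsurj sbar
    refine ⟨t, (hmem t).1 ht1, fun y hy => ⟨s, fun hs => hs2 ((hmem s).2 hs), ?_⟩⟩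
    have h1 : mk s * mk y ∈ Ideal.span {mk t} := by
      rw [h𝔠, mul_comm (mk s)]
      exact Ideal.mul_mem_mul ((hmem y).2 hy) hs1
    obtain ⟨cbar, hc⟩ := Ideal.mem_span_singleton'.1 h1
    obtain ⟨c, rfl⟩ := hsurj cbar
    have h2 : mk (s * y - c * t) = 0 := by
      rw [map_sub, map_mul, map_mul, hc, sub_self]
    have h3 : s * y - c * t ∈ Ideal.span {π} := Ideal.Quotient.eq_zero_iff_mem.1 h2
    obtain ⟨a, ha⟩ := Ideal.mem_span_singleton'.1 h3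
    rw [Ideal.mem_span_pair]
    exact ⟨a, c, by rw [ha]; ring⟩

/-- in an integrally closed domain `x ^ m = y * z ^ m` with `z ≠ 0` forces `z ∣ x`. -/
theorem exists_eq_mul_of_pow_eq {R : Type*} [CommRing R] [IsDomain R] [IsIntegrallyClosed R]
    {m : ℕ} (hm : 0 < m) {x y z : R} (hz : z ≠ 0) (h : x ^ m = y * z ^ m) : ∃ w : R, x = w * z := by
  have hzK : algebraMap R (FractionRing R) z ≠ 0 := by simpa using hz
  have hint : IsIntegral R (algebraMap R (FractionRing R) x / algebraMap R (FractionRing R) z) := by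
    refine ⟨Polynomial.X ^ m - Polynomial.C y, Polynomial.monic_X_pow_sub_C y hm.ne', ?_⟩
    rw [Polynomial.eval₂_sub, Polynomial.eval₂_pow, Polynomial.eval₂_X, Polynomial.eval₂_C, div_pow,
      ← map_pow, ← map_pow, h, map_mul, mul_div_assoc, div_self (by rw [map_pow]; exact pow_ne_zero _ hzK),
      mul_one, sub_self]
  obtain ⟨w, hw⟩ := IsIntegrallyClosed.isIntegral_iff.1 hint
  refine ⟨w, ?_⟩
  apply IsFractionRing.injective R (FractionRing R)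
  rw [map_mul, hw, div_mul_cancel₀ _ hzK]

end Bridge2

variable {F : Type*} [Field F] {Ow : ValuationSubring F} {ϖ : F}

theorem IsChart.regAt {B : Subring F} (hB : IsChart Ow ϖ B) (𝔫 : Ideal B) (h𝔫 : 𝔫.IsMaximal)
    (hπ𝔫 : (⟨ϖ, hB.unif_mem⟩ : B) ∈ 𝔫) : RegAt (⟨ϖ, hB.unif_mem⟩ : B) 𝔫 := by
  have := hB.ded ⟨ϖ, hB.unif_mem⟩ rfl
  exact Bridge2.regAt_of_isDedekindDomain _ 𝔫 h𝔫 hπ𝔫

theorem IsChart.norm {B : Subring F} (hϖ : IsUnif Ow ϖ) (hB : IsChart Ow ϖ B) {m : ℕ}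
    (hm : 0 < m) : ∀ c ∈ Ow, ∀ b ∈ B, (c ^ m - b) / ϖ ∈ Ow → ∃ b' ∈ B, (c - b') / ϖ ∈ Ow := by
  intro c hc b hb hcb
  have hded := hB.ded ⟨ϖ, hB.unif_mem⟩ rfl
  have hϖ0 : ϖ ≠ 0 := by
    rintro rfl
    apply hϖ.inv_notMem
    rw [inv_zero]
    exact Ow.zero_mem
  obtain ⟨b₂, hb₂, hb₂0, hb₂inv, hb₁⟩ := hB.loc c hc
  set π : B := ⟨ϖ, hB.unif_mem⟩ with hπ
  set mk := Ideal.Quotient.mk (Ideal.span {π}) with hmk
  -- the key congruence
  have he : (b₂ * c) ^ m - b * b₂ ^ m ∈ B :=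
    B.sub_mem (B.pow_mem hb₁ m) (B.mul_mem hb (B.pow_mem hb₂ m))
  have he' : ((b₂ * c) ^ m - b * b₂ ^ m) / ϖ ∈ B := by
    apply hB.qep _ he
    have : ((b₂ * c) ^ m - b * b₂ ^ m) / ϖ = b₂ ^ m * ((c ^ m - b) / ϖ) := by
      rw [mul_pow]; ring
    rw [this]
    exact Ow.mul_mem _ _ (Ow.pow_mem (hB.le _ hb₂) m) hcb
  have h1 : mk ⟨b₂ * c, hb₁⟩ ^ m = mk ⟨b, hb⟩ * mk ⟨b₂, hb₂⟩ ^ m := by
    rw [← map_pow, ← map_pow, ← map_mul, ← sub_eq_zero, ← map_sub, hmk,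
      Ideal.Quotient.eq_zero_iff_mem, Ideal.mem_span_singleton']
    refine ⟨⟨_, he'⟩, Subtype.ext ?_⟩
    show ((b₂ * c) ^ m - b * b₂ ^ m) / ϖ * ϖ = (b₂ * c) ^ m - b * b₂ ^ m
    rw [div_mul_cancel₀ _ hϖ0]
  have h2 : mk ⟨b₂, hb₂⟩ ≠ 0 := by
    intro h0
    rw [hmk, Ideal.Quotient.eq_zero_iff_mem, Ideal.mem_span_singleton'] at h0
    obtain ⟨z, hz⟩ := h0
    have hz' : (z : F) * ϖ = b₂ := congrArg Subtype.val hz
    apply hϖ.inv_notMem
    have : ϖ⁻¹ = z * b₂⁻¹ := by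
      have hz0 : (z : F) ≠ 0 := by
        intro h
        rw [h, zero_mul] at hz'
        exact hb₂0 hz'.symm
      rw [← hz', mul_inv, mul_inv_cancel_left₀ hz0]
    rw [this]
    exact Ow.mul_mem _ _ (hB.le _ z.2) hb₂inv
  obtain ⟨w, hw⟩ := Bridge2.exists_eq_mul_of_pow_eq hm h2 h1
  obtain ⟨b', rfl⟩ := Ideal.Quotient.mk_surjective w
  refine ⟨b', b'.2, ?_⟩
  have h3 : (⟨b₂ * c, hb₁⟩ : B) - b' * ⟨b₂, hb₂⟩ ∈ Ideal.span {π} := by
    rw [← Ideal.Quotient.eq_zero_iff_mem, map_sub, map_mul, sub_eq_zero]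
    exact hw
  obtain ⟨z, hz⟩ := Ideal.mem_span_singleton'.1 h3
  have hz' : (z : F) * ϖ = b₂ * c - b' * b₂ := congrArg Subtype.val hz
  have : (c - b') / ϖ = z * b₂⁻¹ := by
    rw [div_eq_iff hϖ0, mul_right_comm, hz']
    field_simp
  rw [this]
  exact Ow.mul_mem _ _ (hB.le _ z.2) hb₂inv

end Fermat.Agent.S18
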