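/-
KL-A, task KLA-INJ-B1 (helper66): bridge from the skeleton predicates `IsUnif`, `IsChart`,
`RootData` to the hypotheses `GaussHyp`, `ChartHyp`, `IsFractionRing`, `DivHyp` of `S18/Abs/*`.
-/
import Mathlib
import Fermat.Agent.S18.Defs
import Fermat.Agent.S18.Chart.Unif
import Fermat.Agent.S18.Abs.Surj
import Fermat.Agent.S18.Abs.LocalGen

set_option autoImplicit false

noncomputable section

namespace Fermat.Agent.S18

open Fermat.Agent.S18.Abs

variable {F : Type*} [Field F] {Ow : ValuationSubring F} {ϖ : F}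

theorem IsUnif.gaussHyp (hϖ : IsUnif Ow ϖ) : GaussHyp Ow ϖ where
  ne_zero := hϖ.ne_zero
  mem := hϖ.mem
  inv_not_mem := hϖ.inv_notMem
  max := fun _ hy hy' => hϖ.div_mem hy hy'

theorem IsChart.chartHyp {B : Subring F} (hϖ : IsUnif Ow ϖ) (hB : IsChart Ow ϖ B) (m : ℕ)
    (hm : 0 < m) : ChartHyp Ow ϖ m B where
  le_O := hB.le
  pi_mem := hB.unif_mem
  qep := by
    intro z hz hzB
    have h0 := hϖ.ne_zero
    have h1 : ϖ * z / ϖ = z := by field_simp
    have h2 := hB.qep (ϖ * z) hzB (by rw [h1]; exact hz)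
    rwa [h1] at h2
  root := by
    intro y hy
    apply hB.intClosed
    refine ⟨Polynomial.X ^ m - Polynomial.C (⟨y ^ m, hy⟩ : B),
      Polynomial.monic_X_pow_sub_C _ hm.ne', ?_⟩
    simp only [Polynomial.eval₂_sub, Polynomial.eval₂_pow, Polynomial.eval₂_X,
      Polynomial.eval₂_C]
    exact sub_eq_zero.mpr rfl

theorem IsChart.isFractionRing {B : Subring F} (hϖ : IsUnif Ow ϖ) (hB : IsChart Ow ϖ B) :
    IsFractionRing B F := by
  have h0 := hϖ.ne_zero
  have key : ∀ y : F, ∃ a b : B, b ≠ 0 ∧ y * (b : F) = (a : F) := by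
    intro y
    obtain ⟨r, hr⟩ := hϖ.exists_pow_mul_mem y
    obtain ⟨b, hb, hb0, -, hby⟩ := hB.loc _ hr
    refine ⟨⟨b * (ϖ ^ r * y), hby⟩, ⟨b * ϖ ^ r, B.mul_mem hb (B.pow_mem hB.unif_mem r)⟩, ?_, ?_⟩
    · intro h
      have h1 : b * ϖ ^ r = 0 := congrArg Subtype.val h
      exact (mul_ne_zero hb0 (pow_ne_zero r h0)) h1
    · show y * (b * ϖ ^ r) = b * (ϖ ^ r * y)
      ring
  refine ⟨?_, ?_, ?_⟩
  · rintro ⟨b, hb⟩
    have hb0 : b ≠ 0 := nonZeroDivisors.ne_zero hb
    have : (algebraMap B F b) ≠ 0 := fun h => hb0 (Subtype.val_injective h)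
    exact this.isUnit
  · intro y
    obtain ⟨a, b, hb0, hab⟩ := key y
    exact ⟨(a, ⟨b, mem_nonZeroDivisors_of_ne_zero hb0⟩), hab⟩
  · intro a b hab
    exact ⟨1, by rw [Subtype.val_injective hab]⟩

theorem RootData.divHyp {B : Subring F} {m : ℕ} {h : F} (hπ : ϖ ∈ B) (hϖ0 : ϖ ≠ 0)
    (r : RootData B ϖ m h) : DivHyp B (⟨ϖ, hπ⟩ : B) m h := by
  classical
  intro V _ _ hBV hinv
  obtain ⟨n, s, a, a', ha, ha', hsum⟩ := r
  have hBV' : ∀ b ∈ B, b ∈ V := fun b hb => hBV ⟨b, hb⟩
  have hinv' : ϖ⁻¹ ∈ V := hinv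
  rcases Nat.eq_zero_or_pos m with rfl | hm
  · -- `m = 0`
    rcases Nat.eq_zero_or_pos n with rfl | hn
    · exfalso
      simp only [Finset.univ_eq_empty, Finset.sum_empty] at hsum
      exact pow_ne_zero s hϖ0 hsum.symm
    · refine ⟨1, one_ne_zero, ?_, ?_⟩
      · have := ha ⟨0, hn⟩
        simp only [pow_zero, one_mul] at this ⊢
        exact hBV' _ this
      · have := ha' ⟨0, hn⟩
        simp only [pow_zero, one_mul] at this ⊢
        exact hBV' _ this
  · rcases eq_or_ne h 0 with rfl | hh0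
    · exact ⟨1, one_ne_zero, by simp [V.zero_mem], by simp [V.zero_mem]⟩
    -- each product lies in `V`
    have hprod : ∀ k, (a k * a' k) ^ m = (a k ^ m * h) * (a' k ^ m * h⁻¹) := by
      intro k
      field_simp
      rw [mul_pow]
    have hmemV : ∀ k, a k * a' k ∈ V := by
      intro k
      apply ValuationSubring_mem_of_pow_mem V hm
      rw [hprod k]
      exact V.mul_mem _ _ (hBV' _ (ha k)) (hBV' _ (ha' k))
    -- some product is a unit of `V`
    have hex : ∃ k, a k * a' k ≠ 0 ∧ (a k * a' k)⁻¹ ∈ V := by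
      by_contra hcon
      push Not at hcon
      have hlt : ∀ k, V.valuation (a k * a' k) < 1 := by
        intro k
        rcases eq_or_ne (a k * a' k) 0 with h0 | h0
        · rw [h0, map_zero]; exact zero_lt_one
        · have h1 : ¬ V.valuation (a k * a' k)⁻¹ ≤ 1 := fun hle =>
            hcon k h0 ((V.valuation_le_one_iff _).mp hle)
          rw [map_inv₀] at h1
          have h2 : V.valuation (a k * a' k) ≠ 0 := (V.valuation.ne_zero_iff).mpr h0
          by_contra h3
          push Not at h3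
          exact h1 (inv_le_one_of_one_le₀ h3)
      have hsumlt : V.valuation (∑ k, a k * a' k) < 1 :=
        V.valuation.map_sum_lt one_ne_zero (fun k _ => hlt k)
      rw [hsum, map_pow] at hsumlt
      have h1 : V.valuation ϖ⁻¹ ≤ 1 := (V.valuation_le_one_iff _).mpr hinv'
      have h2 : V.valuation ϖ ≤ 1 := (V.valuation_le_one_iff _).mpr (hBV' _ hπ)
      have h3 : V.valuation ϖ = 1 := by
        apply le_antisymm h2
        rw [map_inv₀] at h1
        have h4 : V.valuation ϖ ≠ 0 := (V.valuation.ne_zero_iff).mpr hϖ0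
        exact (inv_le_one₀ (zero_lt_iff.mpr h4)).mp h1
      rw [h3, one_pow] at hsumlt
      exact lt_irrefl _ hsumlt
    obtain ⟨k, hk0, hk⟩ := hex
    have hak : a k ≠ 0 := left_ne_zero_of_mul hk0
    refine ⟨a k, hak, hBV' _ (ha k), ?_⟩
    have h1 : (a k ^ m * h)⁻¹ = (a' k ^ m * h⁻¹) * ((a k * a' k)⁻¹) ^ m := by
      have hak' : a' k ≠ 0 := right_ne_zero_of_mul hk0
      rw [inv_pow, mul_pow]
      field_simp
    rw [h1]
    exact V.mul_mem _ _ (hBV' _ (ha' k)) (V.pow_mem hk m)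

end Fermat.Agent.S18
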