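/-
KL-A, INJ-B3 (statements: helper39; proofs: helper196).
`B₁[1/x]` is a chart; the root module is finitely generated over `A₀[x]`; bounded torsion of the
Cech `H¹`.
-/
import Mathlib
import Fermat.Agent.S18.Defs
import Fermat.Agent.S18.Chart.Unif
import Fermat.Agent.S18.Abs.Surj
import Fermat.Agent.S18.Abs.CechBound

set_option autoImplicit false
set_option linter.style.haveILetI false

noncomputable section

namespace Fermat.Agent.S18

open Fermat.Agent.S18.Abs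

variable {F : Type*} [Field F] {Ow : ValuationSubring F} {ϖ : F}

/-- `B[1/x]`. -/
def awaySubring (B : Subring F) (x : F) (hx : x ∈ B) : Subring F where
  carrier := {y | ∃ N : ℕ, x ^ N * y ∈ B}
  mul_mem' := by
    rintro a b ⟨N, hN⟩ ⟨N', hN'⟩
    exact ⟨N + N', by
      have : x ^ (N + N') * (a * b) = (x ^ N * a) * (x ^ N' * b) := by ring
      rw [this]; exact B.mul_mem hN hN'⟩
  one_mem' := ⟨0, by simp⟩
  add_mem' := by
    rintro a b ⟨N, hN⟩ ⟨N', hN'⟩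
    exact ⟨N + N', by
      have : x ^ (N + N') * (a + b) = x ^ N' * (x ^ N * a) + x ^ N * (x ^ N' * b) := by ring
      rw [this]
      exact B.add_mem (B.mul_mem (B.pow_mem hx _) hN) (B.mul_mem (B.pow_mem hx _) hN')⟩
  zero_mem' := ⟨0, by simp⟩
  neg_mem' := by
    rintro a ⟨N, hN⟩
    exact ⟨N, by rw [mul_neg]; exact B.neg_mem hN⟩

theorem mem_awaySubring {B : Subring F} {x : F} {hx : x ∈ B} {y : F} :
    y ∈ awaySubring B x hx ↔ ∃ N : ℕ, x ^ N * y ∈ B := Iff.rfl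

theorem le_awaySubring₁ (B : Subring F) (x : F) (hx : x ∈ B) : B ≤ awaySubring B x hx :=
  fun b hb => ⟨0, by simpa using hb⟩

/-- a chart is closed under `m`-th roots. -/
theorem IsChart.root_mem {B : Subring F} (hB : IsChart Ow ϖ B) {m : ℕ} (hm : 0 < m) {y : F}
    (hy : y ^ m ∈ B) : y ∈ B := by
  apply hB.intClosed
  apply IsIntegral.of_pow hm
  exact (isIntegral_algebraMap (R := B) (A := F) (x := ⟨y ^ m, hy⟩))

theorem awaySubring_chartHyp {A₀ B₁ B₂ : Subring F} {x : F} (hϖ : IsUnif Ow ϖ)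
    (hc : IsCover A₀ x B₁ B₂) (h₁ : IsChart Ow ϖ B₁) (h₂ : IsChart Ow ϖ B₂) (m : ℕ) (hm : 0 < m) :
    ChartHyp Ow ϖ m (awaySubring B₁ x hc.x_mem) := by
  have hx0 := hc.x_ne
  have hxO : x ∈ Ow := h₁.le _ hc.x_mem
  have hxiO : x⁻¹ ∈ Ow := h₂.le _ hc.inv_mem
  have hϖ0 : ϖ ≠ 0 := hϖ.ne_zero
  refine ⟨?_, ?_, ?_, ?_⟩
  · rintro y ⟨N, hN⟩
    have : y = x⁻¹ ^ N * (x ^ N * y) := by
      rw [inv_pow]; field_simp
    rw [this]
    exact Ow.mul_mem _ _ (Ow.pow_mem hxiO _) (h₁.le _ hN)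
  · exact le_awaySubring₁ _ _ _ h₁.unif_mem
  · rintro z hz ⟨N, hN⟩
    refine ⟨N, ?_⟩
    have e : x ^ N * (ϖ * z) / ϖ = x ^ N * z := by field_simp
    have := h₁.qep _ hN (by rw [e]; exact Ow.mul_mem _ _ (Ow.pow_mem hxO _) hz)
    rwa [e] at this
  · rintro y ⟨N, hN⟩
    refine ⟨N, h₁.root_mem hm ?_⟩
    obtain ⟨k, rfl⟩ : ∃ k, m = k + 1 := ⟨m - 1, by omega⟩
    have : (x ^ N * y) ^ (k + 1) = (x ^ N) ^ k * (x ^ N * y ^ (k + 1)) := by ring
    rw [this]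
    exact B₁.mul_mem (B₁.pow_mem (B₁.pow_mem hc.x_mem _) _) hN

theorem le_awaySubring₂ {A₀ B₁ B₂ : Subring F} {x : F} (hc : IsCover A₀ x B₁ B₂) :
    B₂ ≤ awaySubring B₁ x hc.x_mem :=
  fun b hb => hc.overlap₂ b hb

/-- the root module of a chart is finitely generated over `A₀[x]` (for `h ≠ 0`; the statement is
false for `h = 0`, where the root module is all of `F`). -/
theorem exists_finset_rootGroup {A₀ B₁ B₂ : Subring F} {x : F} (hϖ : IsUnif Ow ϖ)
    (hc : IsCover A₀ x B₁ B₂) (h₁ : IsChart Ow ϖ B₁) {m : ℕ} (hm : 0 < m) {h : F} (hh0 : h ≠ 0)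
    (r₁ : RootData B₁ ϖ m h) (hroot : ∀ y : F, y ^ m ∈ B₁ → y ∈ B₁) :
    ∃ s : Finset F, (∀ e ∈ s, e ∈ rootGroup B₁ m hm hroot h) ∧
      ∀ y ∈ rootGroup B₁ m hm hroot h,
        y ∈ Submodule.span A₀ {z : F | ∃ (a : ℕ) (e : F), e ∈ s ∧ z = x ^ a * e} := by
  classical
  set I := rootGroup B₁ m hm hroot h with hI
  obtain ⟨n, s0, a, a', -, ha', hsum⟩ := r₁
  -- a nonzero element `c` with `c ^ m * h⁻¹ ∈ B₁`
  obtain ⟨c, hc0, hcB⟩ : ∃ c : F, c ≠ 0 ∧ c ^ m * h⁻¹ ∈ B₁ := by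
    by_contra hcon
    push Not at hcon
    have hz : ∀ k, a' k = 0 := by
      intro k
      by_contra hk
      exact hcon (a' k) hk (ha' k)
    have : ϖ ^ s0 = 0 := by
      rw [← hsum]
      exact Finset.sum_eq_zero fun k _ => by rw [hz k, mul_zero]
    exact pow_ne_zero _ hϖ.ne_zero this
  have hcI : ∀ y ∈ I, c * y ∈ B₁ := by
    intro y hy
    apply hroot
    have : (c * y) ^ m = (c ^ m * h⁻¹) * (y ^ m * h) := by
      rw [mul_pow]; field_simp
    rw [this]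
    exact B₁.mul_mem hcB hy
  -- the ideal `c I` of `B₁`
  let J : Ideal B₁ :=
    { carrier := {b | (b : F) / c ∈ I}
      zero_mem' := by
        show ((0 : B₁) : F) / c ∈ I
        simp [I.zero_mem]
      add_mem' := by
        intro b b' hb hb'
        show ((b + b' : B₁) : F) / c ∈ I
        have : ((b + b' : B₁) : F) / c = (b : F) / c + (b' : F) / c := by
          push_cast; ring
        rw [this]; exact I.add_mem hb hb'
      smul_mem' := by
        intro r b hb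
        show ((r • b : B₁) : F) / c ∈ I
        have : ((r • b : B₁) : F) / c = (r : F) * ((b : F) / c) := by
          rw [smul_eq_mul]; push_cast; ring
        rw [this]; exact mul_mem_rootGroup r.2 hb }
  haveI := h₁.noeth
  obtain ⟨G, hG⟩ : J.FG := IsNoetherian.noetherian J
  obtain ⟨S, hSB, hS⟩ := hc.fin₁
  have hGJ : ∀ g ∈ G, (g : F) / c ∈ I := by
    intro g hg
    have : g ∈ J := hG ▸ Submodule.subset_span hg
    exact this
  let s : Finset F := (S ×ˢ G).image fun p => p.1 * ((p.2 : F) / c)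
  refine ⟨s, ?_, ?_⟩
  · intro e he
    obtain ⟨⟨e', g⟩, hp, rfl⟩ := Finset.mem_image.mp he
    rw [Finset.mem_product] at hp
    exact mul_mem_rootGroup (hSB _ hp.1) (hGJ _ hp.2)
  · set T : Submodule A₀ F :=
      Submodule.span A₀ {z : F | ∃ (a : ℕ) (e : F), e ∈ s ∧ z = x ^ a * e} with hT
    have claim : ∀ b ∈ B₁, ∀ g ∈ G, b * ((g : F) / c) ∈ T := by
      intro b hb g hg
      have hb' := hS b hb
      clear hb
      induction hb' using Submodule.span_induction with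
      | mem z hz =>
        obtain ⟨k, e, he, rfl⟩ := hz
        refine Submodule.subset_span ⟨k, e * ((g : F) / c), ?_, by ring⟩
        exact Finset.mem_image.mpr ⟨(e, g), Finset.mem_product.mpr ⟨he, hg⟩, rfl⟩
      | zero => rw [zero_mul]; exact T.zero_mem
      | add u u' _ _ hu hu' => rw [add_mul]; exact T.add_mem hu hu'
      | smul r u _ hu => rw [smul_mul_assoc]; exact T.smul_mem r hu
    intro y hy
    have hyJ : (⟨c * y, hcI y hy⟩ : B₁) ∈ J := by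
      show (c * y) / c ∈ I
      rw [mul_div_cancel_left₀ _ hc0]; exact hy
    rw [← hG] at hyJ
    obtain ⟨f, -, hf⟩ := (Submodule.mem_span_finset).mp hyJ
    have hf' : c * y = ∑ g ∈ G, (f g : F) * (g : F) := by
      have := congrArg (Subtype.val) hf
      simpa using this.symm
    have hy' : y = ∑ g ∈ G, (f g : F) * ((g : F) / c) := by
      have : y = (c * y) / c := by rw [mul_div_cancel_left₀ _ hc0]
      rw [this, hf', Finset.sum_div]
      exact Finset.sum_congr rfl fun g _ => by ring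
    rw [hy']
    exact T.sum_mem fun g hg => claim _ (f g).2 g hg

/-- bounded torsion of the Cech `H¹`. -/
theorem exists_torsion_bound_rootGroup {A₀ B₁ B₂ : Subring F} {x : F} (hϖ : IsUnif Ow ϖ)
    (hϖA : ϖ ∈ A₀)
    (hc : IsCover A₀ x B₁ B₂) (h₁ : IsChart Ow ϖ B₁) (h₂ : IsChart Ow ϖ B₂) {m : ℕ} (hm : 0 < m)
    {h : F} (r₁ : RootData B₁ ϖ m h)
    (hr1 : ∀ y : F, y ^ m ∈ B₁ → y ∈ B₁) (hr2 : ∀ y : F, y ^ m ∈ B₂ → y ∈ B₂)
    (hr12 : ∀ y : F, y ^ m ∈ awaySubring B₁ x hc.x_mem → y ∈ awaySubring B₁ x hc.x_mem) :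
    ∃ k0 : ℕ, ∀ y ∈ rootGroup (awaySubring B₁ x hc.x_mem) m hm hr12 h, ∀ k : ℕ,
      ϖ ^ k * y ∈ rootGroup B₁ m hm hr1 h ⊔ rootGroup B₂ m hm hr2 h →
      ϖ ^ k0 * y ∈ rootGroup B₁ m hm hr1 h ⊔ rootGroup B₂ m hm hr2 h := by
  classical
  rcases eq_or_ne h 0 with rfl | hh0
  · refine ⟨0, fun y _ k _ => ?_⟩
    apply (le_sup_left : rootGroup B₁ m hm hr1 0 ≤ _)
    rw [mem_rootGroup, mul_zero]
    exact B₁.zero_mem
  have hx0 := hc.x_ne
  haveI := hc.noeth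
  let I1 : Submodule A₀ F :=
    { rootGroup B₁ m hm hr1 h with
      smul_mem' := fun a y hy => by
        show a • y ∈ rootGroup B₁ m hm hr1 h
        rw [Subring.smul_def, smul_eq_mul]
        exact mul_mem_rootGroup (hc.le₁ a.2) hy }
  let I2 : Submodule A₀ F :=
    { rootGroup B₂ m hm hr2 h with
      smul_mem' := fun a y hy => by
        show a • y ∈ rootGroup B₂ m hm hr2 h
        rw [Subring.smul_def, smul_eq_mul]
        exact mul_mem_rootGroup (hc.le₂ a.2) hy }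
  let I12 : Submodule A₀ F :=
    { rootGroup (awaySubring B₁ x hc.x_mem) m hm hr12 h with
      smul_mem' := fun a y hy => by
        show a • y ∈ rootGroup (awaySubring B₁ x hc.x_mem) m hm hr12 h
        rw [Subring.smul_def, smul_eq_mul]
        exact mul_mem_rootGroup (le_awaySubring₁ _ _ _ (hc.le₁ a.2)) hy }
  have m1 : ∀ y, y ∈ I1 ↔ y ^ m * h ∈ B₁ := fun _ => Iff.rfl
  have m2 : ∀ y, y ∈ I2 ↔ y ^ m * h ∈ B₂ := fun _ => Iff.rfl
  have m12 : ∀ y, y ∈ I12 ↔ ∃ N : ℕ, x ^ N * (y ^ m * h) ∈ B₁ := fun _ => Iff.rfl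
  obtain ⟨s, hsI, hs⟩ := exists_finset_rootGroup hϖ hc h₁ hm hh0 r₁ hr1
  obtain ⟨k0, hk0⟩ := Abs.exists_torsion_bound (A0 := A₀) x hx0 ⟨ϖ, hϖA⟩ I1 I2 I12
    (fun y hy => ⟨0, by simpa using (m1 y).mp hy⟩)
    (fun y hy => mul_mem_rootGroup (hm := hm) (hroot := hr1) hc.x_mem hy)
    (fun y hy => mul_mem_rootGroup (hm := hm) (hroot := hr2) hc.inv_mem hy)
    s hs hsI
    (by
      intro y hy
      obtain ⟨N, hN⟩ := (m12 y).mp hy
      refine ⟨N, (m1 _).mpr ?_⟩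
      obtain ⟨k, rfl⟩ : ∃ k, m = k + 1 := ⟨m - 1, by omega⟩
      have : (x ^ N * y) ^ (k + 1) * h = (x ^ N) ^ k * (x ^ N * (y ^ (k + 1) * h)) := by ring
      rw [this]
      exact B₁.mul_mem (B₁.pow_mem (B₁.pow_mem hc.x_mem _) _) hN)
    (by
      intro y hy
      obtain ⟨N, hN⟩ := (m12 y).mp hy
      obtain ⟨M, hM⟩ := hc.overlap₁ _ hN
      refine ⟨M, (m2 _).mpr ?_⟩
      obtain ⟨k, rfl⟩ : ∃ k, m = k + 1 := ⟨m - 1, by omega⟩
      have : (x⁻¹ ^ M * y) ^ (k + 1) * h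
          = x⁻¹ ^ (M * k + N) * (x⁻¹ ^ M * (x ^ N * (y ^ (k + 1) * h))) := by
        have e : x⁻¹ ^ N * x ^ N = 1 := by rw [← mul_pow, inv_mul_cancel₀ hx0, one_pow]
        calc (x⁻¹ ^ M * y) ^ (k + 1) * h
            = x⁻¹ ^ (M * k) * x⁻¹ ^ M * (y ^ (k + 1) * h) * 1 := by ring
          _ = x⁻¹ ^ (M * k) * x⁻¹ ^ M * (y ^ (k + 1) * h) * (x⁻¹ ^ N * x ^ N) := by rw [e]
          _ = _ := by ring
      rw [this]
      exact B₂.mul_mem (B₂.pow_mem hc.inv_mem _) hM)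
  have hsup : ∀ z : F, z ∈ rootGroup B₁ m hm hr1 h ⊔ rootGroup B₂ m hm hr2 h ↔ z ∈ I1 ⊔ I2 := by
    intro z
    rw [AddSubgroup.mem_sup, Submodule.mem_sup]
    exact Iff.rfl
  have hsmul : ∀ (k : ℕ) (y : F), ((⟨ϖ, hϖA⟩ : A₀) ^ k) • y = ϖ ^ k * y := by
    intro k y
    rw [Subring.smul_def, smul_eq_mul]
    rfl
  refine ⟨k0, fun y hy k hk => ?_⟩
  rw [hsup, ← hsmul] at hk ⊢
  exact hk0 y hy k hk

end Fermat.Agent.S18
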