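/-
KL-A: `inj_abs` (block INJ of the skeleton), assembled from `S18/Abs/*`.
-/
import Mathlib
import Fermat.Agent.S18.Defs
import Fermat.Agent.S18.Chart.Unif
import Fermat.Agent.S18.Abs.InjAbs
import Fermat.Agent.S18.Abs.Bridge1
import Fermat.Agent.S18.Abs.Bridge2
import Fermat.Agent.S18.Abs.Bridge3

set_option autoImplicit false

namespace Fermat.Agent.S18

open Fermat.Agent.S18.Abs

variable {F : Type*} [Field F]

/-- **INJ-abs.**  Two good charts `B₁`, `B₂` covering the `x`-line; `h ≡ 1` whose divisor is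
divisible by `m` on both charts: then `s ^ m * h` is a global section for some `s ≠ 0`. -/
theorem inj_abs {Ow : ValuationSubring F} {ϖ : F} (hϖ : IsUnif Ow ϖ) {A₀ B₁ B₂ : Subring F} {x : F}
    (hϖA : ϖ ∈ A₀) (hc : IsCover A₀ x B₁ B₂) (h₁ : IsChart Ow ϖ B₁) (h₂ : IsChart Ow ϖ B₂)
    {m : ℕ} (hm : (m : F) ≠ 0) (hm' : (m : F)⁻¹ ∈ A₀) {h : F} (hh : (h - 1) / ϖ ∈ Ow)
    (r₁ : RootData B₁ ϖ m h) (r₂ : RootData B₂ ϖ m h) :
    ∃ s : F, s ≠ 0 ∧ s ^ m * h ∈ B₁ ∧ s ^ m * h ∈ B₂ := by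
  have hm0 : 0 < m := by
    rcases Nat.eq_zero_or_pos m with rfl | h0
    · simp at hm
    · exact h0
  have c1 := h₁.chartHyp hϖ m hm0
  have c2 := h₂.chartHyp hϖ m hm0
  have c12 := awaySubring_chartHyp hϖ hc h₁ h₂ m hm0
  have g1 : GoodChart Ow ϖ m h B₁ :=
    { c1 with
      frac := h₁.isFractionRing hϖ
      noeth := h₁.noeth
      minv := hc.le₁ hm'
      div := r₁.divHyp _ hϖ.ne_zero
      reg := fun 𝔫 h𝔫 hπ => h₁.regAt 𝔫 h𝔫 hπ
      norm := h₁.norm hϖ hm0 }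
  have g2 : GoodChart Ow ϖ m h B₂ :=
    { c2 with
      frac := h₂.isFractionRing hϖ
      noeth := h₂.noeth
      minv := hc.le₂ hm'
      div := r₂.divHyp _ hϖ.ne_zero
      reg := fun 𝔫 h𝔫 hπ => h₂.regAt 𝔫 h𝔫 hπ
      norm := h₂.norm hϖ hm0 }
  exact inj_abs_core hϖ.gaussHyp hm0 hm hh g1 g2 c12
    (fun b hb => ⟨0, by simpa using hb⟩) (le_awaySubring₂ hc)
    (exists_torsion_bound_rootGroup hϖ hϖA hc h₁ h₂ hm0 r₁ _ _ _)

end Fermat.Agent.S18
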