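import Mathlib

/-!
# The root module `{y | y ^ m * h ∈ R}` (KL-A, INJ-abs step (b), part 1)

`R` an integrally closed domain with fraction field `F`, `h : F`, `m > 0`.
`rootSet R h m = {y : F | y ^ m * h ∈ R}` is an `R`-submodule of `F`, and the product of `m` of its
elements times `h` lies in `R`.  No valuations are used: everything follows from integrality.
-/

namespace Fermat.Agent.S18.Abs

section RootSet

variable (R : Type*) {F : Type*} [CommRing R] [Field F] [Algebra R F]

/-- `y ∈ rootSet R h m` iff `y ^ m * h` lies in the image of `R`. -/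
def rootSet (h : F) (m : ℕ) : Set F := {y | y ^ m * h ∈ (algebraMap R F).range}

/-- the products `(∏ y_j) * h` of `m` elements of the root set, times `h`. -/
def rootProds (h : F) (m : ℕ) : Set F :=
  {z | ∃ y : Fin m → F, (∀ j, y j ∈ rootSet R h m) ∧ z = (∏ j, y j) * h}

variable {R}

theorem mem_rootSet {h : F} {m : ℕ} {y : F} :
    y ∈ rootSet R h m ↔ ∃ r : R, algebraMap R F r = y ^ m * h := Iff.rfl

theorem mem_range_of_pow_mem [IsDomain R] [IsFractionRing R F] [IsIntegrallyClosed R]
    {m : ℕ} (hm : 0 < m) {z : F} (hz : z ^ m ∈ (algebraMap R F).range) :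
    z ∈ (algebraMap R F).range := by
  obtain ⟨r, hr⟩ := hz
  have h1 : IsIntegral R (z ^ m) := hr ▸ isIntegral_algebraMap
  exact (IsIntegrallyClosed.isIntegral_iff (R := R) (K := F)).1 (h1.of_pow hm)

theorem rootSet_mixed [IsDomain R] [IsFractionRing R F] [IsIntegrallyClosed R]
    {h : F} {m : ℕ} (hm : 0 < m) {y z : F} (hy : y ∈ rootSet R h m) (hz : z ∈ rootSet R h m)
    {i : ℕ} (hi : i ≤ m) : y ^ i * z ^ (m - i) * h ∈ (algebraMap R F).range := by
  apply mem_range_of_pow_mem hm
  have e : (y ^ i * z ^ (m - i) * h) ^ m = (y ^ m * h) ^ i * (z ^ m * h) ^ (m - i) := by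
    obtain ⟨j, rfl⟩ := Nat.exists_eq_add_of_le hi
    simp only [Nat.add_sub_cancel_left]
    ring
  rw [e]
  exact Subring.mul_mem _ (Subring.pow_mem _ hy _) (Subring.pow_mem _ hz _)

theorem rootProds_subset [IsDomain R] [IsFractionRing R F] [IsIntegrallyClosed R]
    {h : F} {m : ℕ} (hm : 0 < m) {z : F} (hz : z ∈ rootProds R h m) :
    z ∈ (algebraMap R F).range := by
  obtain ⟨y, hy, rfl⟩ := hz
  apply mem_range_of_pow_mem hm
  have e : ((∏ j, y j) * h) ^ m = ∏ j, ((y j) ^ m * h) := by
    rw [Finset.prod_mul_distrib, Finset.prod_const, Finset.card_univ, Fintype.card_fin,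
      Finset.prod_pow, mul_pow]
  rw [e]
  exact Subring.prod_mem _ fun j _ => hy j

variable (R)

/-- The root set as a submodule. -/
def rootModule [IsDomain R] [IsFractionRing R F] [IsIntegrallyClosed R]
    (h : F) {m : ℕ} (hm : 0 < m) : Submodule R F where
  carrier := rootSet R h m
  zero_mem' := ⟨0, by simp [hm.ne']⟩
  add_mem' := by
    intro y z hy hz
    change (y + z) ^ m * h ∈ (algebraMap R F).range
    rw [add_pow, Finset.sum_mul]
    refine Subring.sum_mem _ fun i hi => ?_
    have hi' : i ≤ m := Nat.lt_succ_iff.1 (Finset.mem_range.1 hi)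
    have e : y ^ i * z ^ (m - i) * (m.choose i : F) * h
        = (y ^ i * z ^ (m - i) * h) * algebraMap R F (m.choose i : R) := by
      rw [map_natCast]; ring
    rw [e]
    exact Subring.mul_mem _ (rootSet_mixed hm hy hz hi') ⟨_, rfl⟩
  smul_mem' := by
    intro r y hy
    change (r • y) ^ m * h ∈ (algebraMap R F).range
    have e : (r • y) ^ m * h = algebraMap R F (r ^ m) * (y ^ m * h) := by
      rw [Algebra.smul_def, map_pow]; ring
    rw [e]
    exact Subring.mul_mem _ ⟨_, rfl⟩ hy

variable {R}

@[simp] theorem mem_rootModule [IsDomain R] [IsFractionRing R F] [IsIntegrallyClosed R]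
    {h : F} {m : ℕ} (hm : 0 < m) {y : F} : y ∈ rootModule R h hm ↔ y ∈ rootSet R h m := Iff.rfl

end RootSet

end Fermat.Agent.S18.Abs
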