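import Mathlib
import Fermat.Agent.S18.Abs.RootSet

/-!
# The local structure of the root module (KL-A, INJ-abs step (b), part 2)

`R` a noetherian local integrally closed domain, `π` a prime element of the maximal ideal with
`R ⧸ (π)` a principal ideal ring.  If `h` is a `π`-unit and `π ^ k` lies in the span of the products
`(∏ y_j) * h`, `y_j ∈ rootSet R h m`, then there is `g` with `g ^ m * h` a unit of `R`.
-/

set_option linter.unusedSectionVars false
set_option linter.unusedVariables false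

namespace Fermat.Agent.S18.Abs

open Ideal IsLocalRing

/-- Generalised principal-prime lemma: an ideal `q` with `(q : π) = q` is principal. -/
theorem ideal_principal_of_sat {R : Type*} [CommRing R] [IsLocalRing R]
    [IsNoetherianRing R] (π : R) (hπ : π ∈ maximalIdeal R)
    [hP : IsPrincipalIdealRing (R ⧸ Ideal.span {π})]
    (q : Ideal R) (hsat : ∀ z, π * z ∈ q → z ∈ q) : ∃ g ∈ q, q = Ideal.span {g} := by
  classical
  set mk := Ideal.Quotient.mk (Ideal.span {π}) with hmk
  have hsurj : Function.Surjective mk := Ideal.Quotient.mk_surjective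
  obtain ⟨gbar, hgbar⟩ := (hP.principal (q.map mk)).principal
  have hgmem : gbar ∈ q.map mk := by
    rw [hgbar]; exact Submodule.mem_span_singleton_self gbar
  obtain ⟨g, hgq, rfl⟩ := (Ideal.mem_map_iff_of_surjective mk hsurj).1 hgmem
  refine ⟨g, hgq, le_antisymm ?_ ((Ideal.span_singleton_le_iff_mem _).2 hgq)⟩
  have hle : q ≤ Ideal.span {g} ⊔ (Ideal.span {π}) • q := by
    intro y hy
    have hy' : mk y ∈ q.map mk := Ideal.mem_map_of_mem mk hy
    rw [hgbar] at hy'
    obtain ⟨rbar, hr⟩ := (Submodule.mem_span_singleton).1 hy'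
    obtain ⟨r, rfl⟩ := hsurj rbar
    have h1 : mk (y - r * g) = 0 := by
      rw [map_sub, map_mul, ← hr]; simp
    rw [hmk, Ideal.Quotient.eq_zero_iff_mem, Ideal.mem_span_singleton'] at h1
    obtain ⟨z, hz⟩ := h1
    have hzq : z ∈ q := by
      apply hsat
      rw [mul_comm, hz]; exact q.sub_mem hy (q.mul_mem_left r hgq)
    have : y = r * g + π * z := by
      have : y - r * g = π * z := by rw [← hz]; ring
      linear_combination this
    rw [this]
    refine Submodule.add_mem_sup (Ideal.mul_mem_left _ r (Ideal.mem_span_singleton_self g)) ?_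
    exact Submodule.smul_mem_smul (Ideal.mem_span_singleton_self π) hzq
  refine Submodule.le_of_le_smul_of_le_jacobson_bot (IsNoetherian.noetherian q) ?_ hle
  rw [IsLocalRing.jacobson_eq_maximalIdeal ⊥ bot_ne_top]
  exact (Ideal.span_singleton_le_iff_mem _).2 hπ

section PiUnit

variable {R F : Type*} [CommRing R] [IsDomain R] [Field F] [Algebra R F] [IsFractionRing R F]

/-- `y` is a quotient of two elements of `R` prime to `π`. -/
def IsPiUnit (π : R) (y : F) : Prop :=
  ∃ a b : R, ¬ π ∣ a ∧ ¬ π ∣ b ∧ y * algebraMap R F b = algebraMap R F a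

theorem algebraMap_ne_zero_of_not_dvd {π b : R} (hb : ¬ π ∣ b) : algebraMap R F b ≠ 0 := by
  intro h0
  have : b = 0 := (IsFractionRing.injective R F) (by rw [h0, map_zero])
  exact hb (this ▸ dvd_zero π)

theorem IsPiUnit.mul {π : R} (hπ : Prime π) {y z : F} (hy : IsPiUnit π y) (hz : IsPiUnit π z) :
    IsPiUnit π (y * z) := by
  obtain ⟨a, b, ha, hb, e⟩ := hy
  obtain ⟨a', b', ha', hb', e'⟩ := hz
  refine ⟨a * a', b * b', fun h => ?_, fun h => ?_, ?_⟩
  · exact (hπ.dvd_or_dvd h).elim ha ha'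
  · exact (hπ.dvd_or_dvd h).elim hb hb'
  · rw [map_mul, map_mul, ← e, ← e']; ring

theorem IsPiUnit.one {π : R} (hπ : Prime π) : IsPiUnit π (1 : F) :=
  ⟨1, 1, fun h => hπ.not_isUnit (isUnit_of_dvd_one h), fun h => hπ.not_isUnit (isUnit_of_dvd_one h),
    by simp⟩

theorem IsPiUnit.pow {π : R} (hπ : Prime π) {y : F} (hy : IsPiUnit π y) (n : ℕ) :
    IsPiUnit π (y ^ n) := by
  induction n with
  | zero => simpa using IsPiUnit.one hπ
  | succ n ih => rw [pow_succ]; exact ih.mul hπ hy

theorem IsPiUnit.ne_zero {π : R} {y : F} (hy : IsPiUnit π y) : y ≠ 0 := by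
  obtain ⟨a, b, ha, _, e⟩ := hy
  rintro rfl
  rw [zero_mul] at e
  exact algebraMap_ne_zero_of_not_dvd (F := F) ha e.symm

/-- an element of `R` which is a `π`-unit is not divisible by `π`. -/
theorem IsPiUnit.not_dvd {π : R} (hπ : Prime π) {r : R} (hr : IsPiUnit π (algebraMap R F r)) :
    ¬ π ∣ r := by
  obtain ⟨a, b, ha, _, e⟩ := hr
  intro h
  apply ha
  have : r * b = a := (IsFractionRing.injective R F) (by rw [map_mul, e])
  rw [← this]
  exact h.mul_right b

/-- Key principle: `R[1/π] ∩ R_(π) = R`. -/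
theorem mem_range_of_pow_mul_of_mul {π : R} (hπ : Prime π) {t : F} {k : ℕ} {c : R}
    (h1 : algebraMap R F (π ^ k) * t ∈ (algebraMap R F).range) (hc : ¬ π ∣ c)
    (h2 : algebraMap R F c * t ∈ (algebraMap R F).range) : t ∈ (algebraMap R F).range := by
  obtain ⟨r1, hr1⟩ := h1
  obtain ⟨r2, hr2⟩ := h2
  have e : c * r1 = π ^ k * r2 := by
    apply IsFractionRing.injective R F
    rw [map_mul, map_mul, hr1, hr2]; ring
  have hd : π ^ k ∣ r1 := hπ.pow_dvd_of_dvd_mul_left k hc (e ▸ dvd_mul_right _ _)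
  obtain ⟨r, rfl⟩ := hd
  refine ⟨r, ?_⟩
  have hπ0 : algebraMap R F (π ^ k) ≠ 0 := by
    intro h0
    exact pow_ne_zero k hπ.ne_zero ((IsFractionRing.injective R F) (by rw [h0, map_zero]))
  apply mul_left_cancel₀ hπ0
  rw [← hr1, map_mul]

end PiUnit

section Local

variable {R F : Type*} [CommRing R] [IsDomain R] [Field F] [Algebra R F] [IsFractionRing R F]

/-- the root set contains a `π`-unit as soon as it contains a nonzero element. -/
theorem exists_piUnit_mem_rootSet [IsNoetherianRing R] {π : R} (hπ : Prime π) {h : F} {m : ℕ}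
    (hh : IsPiUnit π h) {y : F} (hy0 : y ≠ 0) (hy : y ∈ rootSet R h m) :
    ∃ y0 ∈ rootSet R h m, IsPiUnit π y0 := by
  obtain ⟨c1, c2, hc2, rfl⟩ := IsFractionRing.div_surjective (A := R) y
  have hc2' : c2 ≠ 0 := nonZeroDivisors.ne_zero hc2
  have hc1' : c1 ≠ 0 := by
    rintro rfl
    simp at hy0
  obtain ⟨a1, c1', hc1d, rfl⟩ := WfDvdMonoid.max_power_factor hc1' hπ.irreducible
  obtain ⟨a2, c2', hc2d, rfl⟩ := WfDvdMonoid.max_power_factor hc2' hπ.irreducible
  obtain ⟨a, b, ha, hb, hab⟩ := hh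
  have hc2F : algebraMap R F c2' ≠ 0 := algebraMap_ne_zero_of_not_dvd hc2d
  have hπF : algebraMap R F π ≠ 0 := by
    intro h0
    exact hπ.ne_zero ((IsFractionRing.injective R F) (by rw [h0, map_zero]))
  refine ⟨algebraMap R F c1' / algebraMap R F c2', ?_, c1', c2', hc1d, hc2d, by field_simp⟩
  have hc : ¬ π ∣ c2' ^ m * b := fun hd =>
    (hπ.dvd_or_dvd hd).elim (fun h' => hc2d (hπ.dvd_of_dvd_pow h')) hb
  refine mem_range_of_pow_mul_of_mul hπ (k := m * a1) (c := c2' ^ m * b) ?_ hc ?_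
  · obtain ⟨r, hr⟩ := hy
    refine ⟨π ^ (m * a2) * r, ?_⟩
    rw [map_mul, hr]
    simp only [map_mul, map_pow]
    generalize algebraMap R F π = P at *
    generalize algebraMap R F c1' = C1 at *
    generalize algebraMap R F c2' = C2 at *
    have key : (P ^ a1 * C1) / (P ^ a2 * C2) * P ^ a2 = P ^ a1 * (C1 / C2) := by field_simp
    calc P ^ (m * a2) * (((P ^ a1 * C1) / (P ^ a2 * C2)) ^ m * h)
        = ((P ^ a1 * C1) / (P ^ a2 * C2) * P ^ a2) ^ m * h := by
          rw [mul_pow, ← pow_mul, mul_comm a2 m]; ring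
      _ = P ^ (m * a1) * ((C1 / C2) ^ m * h) := by
          rw [key, mul_pow, ← pow_mul, mul_comm a1 m]; ring
  · refine ⟨c1' ^ m * a, ?_⟩
    rw [map_mul, ← hab]
    simp only [map_mul, map_pow]
    rw [div_pow]
    field_simp

/-- **Local structure of the root module.** -/
theorem exists_unit_root [IsLocalRing R] [IsNoetherianRing R] [IsIntegrallyClosed R]
    {π : R} (hπ : Prime π) (hπm : π ∈ maximalIdeal R)
    [IsPrincipalIdealRing (R ⧸ Ideal.span {π})]
    {h : F} {m : ℕ} (hm : 0 < m) (hh : IsPiUnit π h)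
    {k : ℕ} (hdiv : algebraMap R F (π ^ k) ∈ Submodule.span R (rootProds R h m)) :
    ∃ g : F, ∃ u : Rˣ, g ^ m * h = algebraMap R F u := by
  have hinj := IsFractionRing.injective R F
  -- a nonzero element of the root set
  have hex : ∃ y ∈ rootSet R h m, y ≠ 0 := by
    by_contra hcon
    push Not at hcon
    have hle : Submodule.span R (rootProds R h m) ≤ ⊥ := by
      rw [Submodule.span_le]
      rintro z ⟨y, hy, rfl⟩
      have h0 : y ⟨0, hm⟩ = 0 := hcon _ (hy _)
      simp [Finset.prod_eq_zero (Finset.mem_univ (⟨0, hm⟩ : Fin m)) h0]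
    have h0 : algebraMap R F (π ^ k) = 0 := by simpa using hle hdiv
    exact pow_ne_zero k hπ.ne_zero (hinj (by rw [h0, map_zero]))
  obtain ⟨y, hy, hy0⟩ := hex
  obtain ⟨y0, hy0mem, hy0u⟩ := exists_piUnit_mem_rootSet hπ hh hy0 hy
  set d : F := y0 ^ (m - 1) * h with hd
  have hdu : IsPiUnit π d := (hy0u.pow hπ _).mul hπ hh
  have hd0 : d ≠ 0 := hdu.ne_zero
  let 𝔟 : Ideal R := Submodule.comap (LinearMap.toSpanSingleton R F d⁻¹) (rootModule R h hm)
  have hmem𝔟 : ∀ r : R, r ∈ 𝔟 ↔ (algebraMap R F r * d⁻¹) ∈ rootSet R h m := by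
    intro r
    simp only [𝔟, Submodule.mem_comap, LinearMap.toSpanSingleton_apply, mem_rootModule,
      Algebra.smul_def]
  have hsat : ∀ z, π * z ∈ 𝔟 → z ∈ 𝔟 := by
    intro z hz
    rw [hmem𝔟] at hz ⊢
    obtain ⟨d1, d2, hd1, hd2, hd12⟩ := hdu
    obtain ⟨a, b, ha, hb, hab⟩ := hh
    have hc : ¬ π ∣ d1 ^ m * b := fun hdv =>
      (hπ.dvd_or_dvd hdv).elim (fun h' => hd1 (hπ.dvd_of_dvd_pow h')) hb
    refine mem_range_of_pow_mul_of_mul hπ (k := m) (c := d1 ^ m * b) ?_ hc ?_
    · obtain ⟨r, hr⟩ := hz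
      refine ⟨r, ?_⟩
      rw [hr]
      simp only [map_mul, map_pow]
      ring
    · refine ⟨z ^ m * d2 ^ m * a, ?_⟩
      rw [map_mul, ← hab]
      simp only [map_mul, map_pow]
      rw [← hd12]
      have e3 : d * algebraMap R F d2 * (algebraMap R F z * d⁻¹)
          = algebraMap R F d2 * algebraMap R F z := by
        field_simp
      calc _ = (algebraMap R F d2 * algebraMap R F z) ^ m * (h * algebraMap R F b) := by ring
        _ = (d * algebraMap R F d2 * (algebraMap R F z * d⁻¹)) ^ m * (h * algebraMap R F b) := by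
            rw [e3]
        _ = _ := by ring
  obtain ⟨g', hg'mem, hg'⟩ := ideal_principal_of_sat π hπm 𝔟 hsat
  set g : F := algebraMap R F g' * d⁻¹ with hg
  have hgmem : g ∈ rootSet R h m := (hmem𝔟 g').1 hg'mem
  -- every element of the root set is a multiple of `g`
  have hall : ∀ z ∈ rootSet R h m, ∃ r : R, z = algebraMap R F r * g := by
    intro z hz
    have h1 := rootSet_mixed hm hy0mem hz (i := m - 1) (Nat.sub_le _ _)
    have e1 : m - (m - 1) = 1 := by omega
    rw [e1, pow_one] at h1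
    obtain ⟨r0, hr0⟩ := h1
    have hzd : algebraMap R F r0 * d⁻¹ = z := by
      have e2 : y0 ^ (m - 1) * z * h = z * d := by rw [hd]; ring
      rw [hr0, e2, mul_inv_cancel_right₀ hd0]
    have hr0mem : r0 ∈ 𝔟 := by
      rw [hmem𝔟, hzd]; exact hz
    rw [hg', Ideal.mem_span_singleton'] at hr0mem
    obtain ⟨r, rfl⟩ := hr0mem
    refine ⟨r, ?_⟩
    rw [← hzd, hg, map_mul]; ring
  obtain ⟨t0, ht0⟩ := hgmem
  -- the span of the products is contained in `t0 R`
  have hspan : Submodule.span R (rootProds R h m) ≤ Submodule.span R {algebraMap R F t0} := by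
    rw [Submodule.span_le]
    rintro z ⟨y, hy, rfl⟩
    choose r hr using fun j => hall (y j) (hy j)
    have e : (∏ j, y j) * h = (∏ j, r j) • algebraMap R F t0 := by
      rw [ht0, Algebra.smul_def, map_prod]
      have : ∏ j, y j = (∏ j, algebraMap R F (r j)) * g ^ m := by
        rw [Finset.prod_congr rfl fun j _ => hr j, Finset.prod_mul_distrib, Finset.prod_const,
          Finset.card_univ, Fintype.card_fin]
      rw [this]; ring
    rw [e]
    exact Submodule.smul_mem _ _ (Submodule.mem_span_singleton_self _)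
  obtain ⟨r, hr⟩ := Submodule.mem_span_singleton.1 (hspan hdiv)
  have ht0dvd : t0 ∣ π ^ k := by
    refine ⟨r, hinj ?_⟩
    rw [← hr, Algebra.smul_def, map_mul]; ring
  have hnd : ¬ π ∣ t0 := by
    obtain ⟨r1, hr1⟩ := hall y0 hy0mem
    have hu : IsPiUnit π (algebraMap R F (r1 ^ m * t0)) := by
      have : algebraMap R F (r1 ^ m * t0) = y0 ^ m * h := by
        rw [map_mul, ht0, hr1, map_pow]; ring
      rw [this]
      exact (hy0u.pow hπ _).mul hπ hh
    intro hdv
    exact hu.not_dvd hπ (hdv.mul_left _)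
  obtain ⟨i, _, hi⟩ := (dvd_prime_pow hπ k).1 ht0dvd
  have hunit : IsUnit t0 := by
    rcases i with _ | i
    · rw [pow_zero] at hi
      exact hi.symm.isUnit isUnit_one |> fun h => h
    · exact absurd ((dvd_pow_self π (Nat.succ_ne_zero i)).trans hi.symm.dvd) hnd
  obtain ⟨u, rfl⟩ := hunit
  exact ⟨g, u, ht0.symm⟩

end Local

end Fermat.Agent.S18.Abs
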