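import Mathlib
import Fermat.Agent.S18.Abs.LocalRoot

/-!
# The reduction of the root module is onto (KL-A, INJ-abs step (b), part 3)

`B` a noetherian integrally closed domain with fraction field `F`, `π` a prime element with
`B ⧸ (π)` a Dedekind domain, `h ≡ 1` modulo `π B_(π)`, and `π ^ k` in the span of the products
`(∏ y_j) * h`, `y_j ∈ rootSet B h m`.  Then the root set contains an element `c ≡ 1`.
-/

set_option linter.unusedSectionVars false
set_option linter.unusedVariables false

namespace Fermat.Agent.S18.Abs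

open Ideal IsLocalRing

section Congr

variable {B F : Type*} [CommRing B] [IsDomain B] [Field F] [Algebra B F] [IsFractionRing B F]

/-- `y ≡ γ` modulo `π B_(π)`. -/
def CongrMod (π : B) (y : F) (γ : B) : Prop :=
  ∃ u v : B, ¬ π ∣ v ∧ y * algebraMap B F v = algebraMap B F u ∧ π ∣ u - γ * v

theorem CongrMod.add {π : B} (hπ : Prime π) {y y' : F} {γ γ' : B} (h : CongrMod π y γ)
    (h' : CongrMod π y' γ') : CongrMod π (y + y') (γ + γ') := by
  obtain ⟨u, v, hv, e, d⟩ := h
  obtain ⟨u', v', hv', e', d'⟩ := h'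
  refine ⟨u * v' + u' * v, v * v', fun hd => (hπ.dvd_or_dvd hd).elim hv hv', ?_, ?_⟩
  · simp only [map_add, map_mul, ← e, ← e']; ring
  · have : u * v' + u' * v - (γ + γ') * (v * v') = (u - γ * v) * v' + (u' - γ' * v') * v := by ring
    rw [this]
    exact dvd_add (d.mul_right _) (d'.mul_right _)

theorem CongrMod.smul {π : B} {y : F} {γ : B} (h : CongrMod π y γ) (b : B) :
    CongrMod π (b • y) (b * γ) := by
  obtain ⟨u, v, hv, e, d⟩ := h
  refine ⟨b * u, v, hv, ?_, ?_⟩
  · rw [Algebra.smul_def, map_mul, ← e]; ring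
  · have : b * u - b * γ * v = b * (u - γ * v) := by ring
    rw [this]; exact d.mul_left _

theorem CongrMod.zero {π : B} (hπ : Prime π) (b : B) : CongrMod π (0 : F) (π * b) :=
  ⟨0, 1, fun h => hπ.not_isUnit (isUnit_of_dvd_one h), by simp, by simp⟩

/-- `B_(π)` is integrally closed (the special case we need). -/
theorem exists_den_of_pow {π : B} (hπ : Prime π) [IsNoetherianRing B] {m : ℕ} (hm : 0 < m)
    {g : F} {p q : B} (hq : ¬ π ∣ q) (hg : g ^ m * algebraMap B F q = algebraMap B F p) :
    ∃ u v : B, ¬ π ∣ v ∧ g * algebraMap B F v = algebraMap B F u := by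
  have hinj := IsFractionRing.injective B F
  obtain ⟨c1, c2, hc2, rfl⟩ := IsFractionRing.div_surjective (A := B) g
  have hc2' : c2 ≠ 0 := nonZeroDivisors.ne_zero hc2
  obtain ⟨j, v, hv, rfl⟩ := WfDvdMonoid.max_power_factor hc2' hπ.irreducible
  have hπF : algebraMap B F π ≠ 0 := by
    intro h0
    exact hπ.ne_zero (hinj (by rw [h0, map_zero]))
  have hvF : algebraMap B F v ≠ 0 := algebraMap_ne_zero_of_not_dvd hv
  set g : F := algebraMap B F c1 / algebraMap B F (π ^ j * v) with hgdef
  have key : ∀ (j : ℕ) (u : B), g * algebraMap B F (π ^ j * v) = algebraMap B F u →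
      ∃ u' : B, g * algebraMap B F v = algebraMap B F u' := by
    intro j
    induction j with
    | zero => intro u hu; exact ⟨u, by simpa using hu⟩
    | succ j ih =>
      intro u hu
      have h1 : u ^ m * q = p * (π ^ (j + 1) * v) ^ m := by
        apply hinj
        rw [map_mul, map_mul, map_pow, map_pow, ← hu, ← hg]; ring
      have h2 : π ∣ u ^ m * q := by
        rw [h1, mul_pow, ← pow_mul]
        refine Dvd.dvd.mul_left (Dvd.dvd.mul_right (dvd_pow_self π ?_) _) _
        exact (Nat.mul_pos (Nat.succ_pos j) hm).ne'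
      have h3 : π ∣ u := hπ.dvd_of_dvd_pow ((hπ.dvd_or_dvd h2).resolve_right hq)
      obtain ⟨u1, rfl⟩ := h3
      apply ih u1
      apply mul_left_cancel₀ hπF
      rw [← map_mul, ← hu]
      simp only [map_mul, map_pow]
      ring
  obtain ⟨u', hu'⟩ := key j c1 (by
    rw [hgdef]
    have : algebraMap B F (π ^ j * v) ≠ 0 := by
      rw [map_mul, map_pow]; exact mul_ne_zero (pow_ne_zero _ hπF) hvF
    field_simp)
  exact ⟨u', v, hv, hu'⟩

/-- in an integrally closed domain, `u ^ m = β * v ^ m` with `v ≠ 0` forces `v ∣ u`. -/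
theorem dvd_of_pow_eq_mul_pow {D : Type*} [CommRing D] [IsDomain D] [IsIntegrallyClosed D]
    {m : ℕ} (hm : 0 < m) {u v β : D} (hv : v ≠ 0) (h : u ^ m = β * v ^ m) : v ∣ u := by
  let K := FractionRing D
  have hvK : algebraMap D K v ≠ 0 := by
    intro h0
    exact hv ((IsFractionRing.injective D K) (by rw [h0, map_zero]))
  have h1 : (algebraMap D K u / algebraMap D K v) ^ m ∈ (algebraMap D K).range := by
    refine ⟨β, ?_⟩
    rw [div_pow, ← map_pow, ← map_pow, h, map_mul]
    have : algebraMap D K (v ^ m) ≠ 0 := by rw [map_pow]; exact pow_ne_zero _ hvK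
    rw [mul_div_assoc, div_self this, mul_one]
  obtain ⟨γ, hγ⟩ := mem_range_of_pow_mem hm h1
  refine ⟨γ, (IsFractionRing.injective D K) ?_⟩
  rw [map_mul, hγ, mul_comm, div_mul_cancel₀ _ hvK]

end Congr

section Global

variable {B F : Type*} [CommRing B] [IsDomain B] [Field F] [Algebra B F] [IsFractionRing B F]

/-- a local Dedekind domain is a principal ideal ring. -/
theorem pir_of_local_dedekind (D : Type*) [CommRing D] [IsDedekindDomain D] [IsLocalRing D] :
    IsPrincipalIdealRing D := by
  apply IsPrincipalIdealRing.of_finite_maximals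
  refine (Set.finite_singleton (maximalIdeal D)).subset ?_
  intro I hI
  exact IsLocalRing.eq_maximalIdeal hI

/-- Local-to-global: at a maximal ideal `n ∋ π` the root set contains `g` with
`g ^ m * h ∈ B ∖ n`. -/
theorem exists_mem_rootSet_notMem [IsNoetherianRing B] [IsIntegrallyClosed B]
    {π : B} (hπ : Prime π) [IsDedekindDomain (B ⧸ Ideal.span {π})]
    {h : F} {m : ℕ} (hm : 0 < m) (hh : IsPiUnit π h)
    {k : ℕ} (hdiv : algebraMap B F (π ^ k) ∈ Submodule.span B (rootProds B h m))
    (n : Ideal B) [hn : n.IsMaximal] (hπn : π ∈ n) :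
    ∃ g : F, ∃ β : B, β ∉ n ∧ g ^ m * h = algebraMap B F β := by
  classical
  have hinj := IsFractionRing.injective B F
  let R := Localization.AtPrime n
  have hunits : ∀ s : n.primeCompl, IsUnit (algebraMap B F s) := by
    intro s
    apply IsUnit.mk0
    intro h0
    have : (s : B) = 0 := hinj (by rw [h0, map_zero])
    exact s.2 (this ▸ n.zero_mem)
  let algRF : Algebra R F := (IsLocalization.lift (M := n.primeCompl) (S := R) hunits).toAlgebra
  have : IsScalarTower B R F := IsScalarTower.of_algebraMap_eq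
    (fun x => (IsLocalization.lift_eq hunits x).symm)
  have : IsFractionRing R F :=
    IsFractionRing.isFractionRing_of_isDomain_of_isLocalization n.primeCompl R F
  have : IsNoetherianRing R := IsLocalization.isNoetherianRing n.primeCompl R inferInstance
  have : IsIntegrallyClosed R :=
    isIntegrallyClosed_of_isLocalization R n.primeCompl n.primeCompl_le_nonZeroDivisors
  set I : Ideal B := Ideal.span {π} with hI
  have hIprime : I.IsPrime := (Ideal.span_singleton_prime hπ.ne_zero).2 hπ
  have hIn : I ≤ n := (Ideal.span_singleton_le_iff_mem _).2 hπn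
  have hdisj : Disjoint (n.primeCompl : Set B) (I : Set B) := by
    rw [Set.disjoint_left]
    intro x hx hxI
    exact hx (hIn hxI)
  set π' : R := algebraMap B R π with hπ'
  have hmap : I.map (algebraMap B R) = Ideal.span {π'} := by
    rw [hI, Ideal.map_span, Set.image_singleton]
  have hdvd : ∀ a : B, π' ∣ algebraMap B R a → π ∣ a := by
    intro a ha
    have h1 : algebraMap B R a ∈ I.map (algebraMap B R) := by
      rw [hmap]; exact Ideal.mem_span_singleton.2 ha
    have h2 : a ∈ (I.map (algebraMap B R)).under B := h1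
    rw [IsLocalization.under_map_of_isPrime_disjoint n.primeCompl R hIprime hdisj] at h2
    exact Ideal.mem_span_singleton.1 h2
  have hinjR : Function.Injective (algebraMap B R) :=
    IsLocalization.injective R n.primeCompl_le_nonZeroDivisors
  have hπ'0 : π' ≠ 0 := fun h0 => hπ.ne_zero (hinjR (by rw [← hπ', h0, map_zero]))
  have hπ'prime : Prime π' := by
    rw [← Ideal.span_singleton_prime hπ'0, ← hmap]
    exact IsLocalization.isPrime_of_isPrime_disjoint n.primeCompl R I hIprime hdisj
  have hπ'm : π' ∈ maximalIdeal R :=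
    (IsLocalization.AtPrime.to_map_mem_maximal_iff R n π).2 hπn
  have hPIR : IsPrincipalIdealRing (R ⧸ Ideal.span {π'}) := by
    rw [← hmap]
    have hM : Algebra.algebraMapSubmonoid (B ⧸ I) n.primeCompl ≤ nonZeroDivisors (B ⧸ I) := by
      rintro _ ⟨s, hs, rfl⟩
      rw [mem_nonZeroDivisors_iff_ne_zero]
      intro h0
      rw [Ideal.Quotient.algebraMap_eq, Ideal.Quotient.eq_zero_iff_mem] at h0
      exact hs (hIn h0)
    have hDom : IsDomain (R ⧸ I.map (algebraMap B R)) :=
      (Ideal.Quotient.isDomain_iff_prime _).2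
        (IsLocalization.isPrime_of_isPrime_disjoint n.primeCompl R I hIprime hdisj)
    have hD : IsDedekindDomain (R ⧸ I.map (algebraMap B R)) :=
      IsLocalization.isDedekindDomain (B ⧸ I) hM _
    have hL : IsLocalRing (R ⧸ I.map (algebraMap B R)) :=
      IsLocalRing.of_surjective' (Ideal.Quotient.mk _) Ideal.Quotient.mk_surjective
    exact pir_of_local_dedekind _
  have hh' : IsPiUnit π' h := by
    obtain ⟨a, b, ha, hb, hab⟩ := hh
    refine ⟨algebraMap B R a, algebraMap B R b, fun h => ha (hdvd a h), fun h => hb (hdvd b h), ?_⟩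
    rw [← IsScalarTower.algebraMap_apply, ← IsScalarTower.algebraMap_apply]
    exact hab
  have hsub : rootProds B h m ⊆ rootProds R h m := by
    rintro z ⟨y, hy, rfl⟩
    refine ⟨y, fun j => ?_, rfl⟩
    obtain ⟨r, hr⟩ := hy j
    exact ⟨algebraMap B R r, by rw [← IsScalarTower.algebraMap_apply]; exact hr⟩
  have hdiv' : algebraMap R F (π' ^ k) ∈ Submodule.span R (rootProds R h m) := by
    have h2 : algebraMap B F (π ^ k) ∈ Submodule.span R (rootProds B h m) :=
      Submodule.span_le_restrictScalars B R (rootProds B h m) hdiv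
    have h3 := Submodule.span_mono hsub h2
    rwa [hπ', ← map_pow, ← IsScalarTower.algebraMap_apply]
  obtain ⟨g, u, hgu⟩ := exists_unit_root hπ'prime hπ'm hm hh' hdiv'
  obtain ⟨b1, s1, hbs⟩ := IsLocalization.exists_mk'_eq n.primeCompl (u : R)
  have hb1 : b1 ∉ n := by
    have : IsUnit (IsLocalization.mk' R b1 s1) := hbs ▸ u.isUnit
    exact (IsLocalization.AtPrime.isUnit_mk'_iff R n b1 s1).1 this
  refine ⟨algebraMap B F s1 * g, (s1 : B) ^ (m - 1) * b1, ?_, ?_⟩
  · intro hmem
    rcases hn.isPrime.mem_or_mem hmem with h | h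
    · exact s1.2 (hn.isPrime.mem_of_pow_mem _ h)
    · exact hb1 h
  · have h1 : algebraMap R F (u : R) * algebraMap B F s1 = algebraMap B F b1 := by
      rw [IsScalarTower.algebraMap_apply B R F, IsScalarTower.algebraMap_apply B R F, ← map_mul,
        ← hbs, IsLocalization.mk'_spec]
    obtain ⟨m', rfl⟩ : ∃ m', m = m' + 1 := ⟨m - 1, by omega⟩
    simp only [Nat.add_sub_cancel, map_mul, map_pow]
    rw [← h1, ← hgu]
    ring

/-- **The reduction of the root module is onto**: it contains an element `c ≡ 1`. -/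
theorem exists_root_congr_one [IsNoetherianRing B] [IsIntegrallyClosed B]
    {π : B} (hπ : Prime π) [IsDedekindDomain (B ⧸ Ideal.span {π})]
    {h : F} {m : ℕ} (hm : 0 < m) (hh : CongrMod π h 1)
    {k : ℕ} (hdiv : algebraMap B F (π ^ k) ∈ Submodule.span B (rootProds B h m)) :
    ∃ c ∈ rootSet B h m, CongrMod π c 1 := by
  have hinj := IsFractionRing.injective B F
  obtain ⟨a, b, hb, hab, hd⟩ := hh
  rw [one_mul] at hd
  have ha : ¬ π ∣ a := by
    intro h1
    apply hb
    have := dvd_sub h1 hd
    simpa using this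
  have hhu : IsPiUnit π h := ⟨a, b, ha, hb, hab⟩
  let 𝔧 : Ideal B :=
    { carrier := {γ | ∃ y ∈ rootSet B h m, CongrMod π y γ}
      add_mem' := by
        rintro γ γ' ⟨y, hy, c⟩ ⟨y', hy', c'⟩
        exact ⟨y + y', (rootModule B h hm).add_mem hy hy', c.add hπ c'⟩
      zero_mem' := ⟨0, (rootModule B h hm).zero_mem, by simpa using CongrMod.zero (F := F) hπ 0⟩
      smul_mem' := by
        rintro b γ ⟨y, hy, c⟩
        exact ⟨b • y, (rootModule B h hm).smul_mem b hy, c.smul b⟩ }
  suffices h1 : (1 : B) ∈ 𝔧 from h1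
  by_contra hcon
  obtain ⟨n, hn, hle⟩ := Ideal.exists_le_maximal 𝔧 ((Ideal.ne_top_iff_one _).2 hcon)
  have hπn : π ∈ n :=
    hle ⟨0, (rootModule B h hm).zero_mem, by simpa using CongrMod.zero (F := F) hπ 1⟩
  obtain ⟨g, β, hβ, hg⟩ := exists_mem_rootSet_notMem hπ hm hhu hdiv n hπn
  have hgmem : g ∈ rootSet B h m := ⟨β, hg.symm⟩
  have e1 : g ^ m * algebraMap B F a = algebraMap B F (β * b) := by
    rw [← hab, map_mul, ← hg]; ring
  obtain ⟨u, v, hv, huv⟩ := exists_den_of_pow hπ hm ha e1
  have e2 : u ^ m * a = β * b * v ^ m := by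
    apply hinj
    have : algebraMap B F (u ^ m * a) = (g ^ m * algebraMap B F a) * algebraMap B F v ^ m := by
      rw [map_mul, map_pow, ← huv]; ring
    rw [this, e1, map_mul _ (β * b), map_pow]
  set mk := Ideal.Quotient.mk (Ideal.span {π}) with hmk
  have hne : ∀ x : B, ¬ π ∣ x → mk x ≠ 0 := fun x hx h0 =>
    hx (Ideal.mem_span_singleton.1 (Ideal.Quotient.eq_zero_iff_mem.1 h0))
  have hab' : mk a = mk b := Ideal.Quotient.eq.2 (Ideal.mem_span_singleton.2 hd)
  have e3 : mk u ^ m = mk β * mk v ^ m := by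
    apply mul_right_cancel₀ (hne b hb)
    have := congrArg mk e2
    simp only [map_mul, map_pow, hab'] at this
    rw [this]; ring
  obtain ⟨γbar, hγ⟩ := dvd_of_pow_eq_mul_pow hm (hne v hv) e3
  obtain ⟨γ, rfl⟩ := Ideal.Quotient.mk_surjective γbar
  have hc : CongrMod π g γ := by
    refine ⟨u, v, hv, huv, Ideal.mem_span_singleton.1 (Ideal.Quotient.eq.1 ?_)⟩
    rw [map_mul, mul_comm]; exact hγ
  have hγn : γ ∈ n := hle ⟨g, hgmem, hc⟩
  have e4 : mk (γ ^ m) = mk β := by
    apply mul_right_cancel₀ (pow_ne_zero m (hne v hv))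
    rw [← e3, hγ, map_pow]; ring
  have h5 : γ ^ m - β ∈ n :=
    ((Ideal.span_singleton_le_iff_mem _).2 hπn) (Ideal.Quotient.eq.1 e4)
  apply hβ
  have : β = γ ^ m - (γ ^ m - β) := by ring
  rw [this]
  exact n.sub_mem (n.pow_mem_of_mem hγn m hm) h5

/-- The form needed by the Newton iteration. -/
theorem exists_root_congr [IsNoetherianRing B] [IsIntegrallyClosed B]
    {π : B} (hπ : Prime π) [IsDedekindDomain (B ⧸ Ideal.span {π})]
    {h : F} {m : ℕ} (hm : 0 < m) (hh : CongrMod π h 1)
    {k : ℕ} (hdiv : algebraMap B F (π ^ k) ∈ Submodule.span B (rootProds B h m)) (b : B) :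
    ∃ c ∈ rootSet B h m, CongrMod π c b := by
  obtain ⟨c, hc, hc1⟩ := exists_root_congr_one hπ hm hh hdiv
  exact ⟨b • c, (rootModule B h hm).smul_mem b hc, by simpa using hc1.smul b⟩

end Global

end Fermat.Agent.S18.Abs
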